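/-
S48 wall (W), block G-RED, seat G-BRANCH (helper7), part HOM: an unramified fibre from a Galois
datum (GENERIC; no identification of the stabiliser is needed).

`φ : F →ₐ[K] L` an embedding into a field `L` with an action of a group `Γ`, `L^Γ = K(jL)`,
`φ j = jL`, a finite index subgroup of `Γ` acts trivially.  If `L` has a valuation `w`, trivial on
the constants, with `w (jL - c) = exp (-1)`  (a point over `c` at which `j - c` is a local
parameter), then the fibre of `j` over `c` in `F` has exactly `[F : K(j)]` places.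
-/
import Mathlib
import Fermat.Agent.Lib.GoodRed.ModularBranch

set_option autoImplicit false
set_option linter.style.haveILetI false

noncomputable section

namespace Fermat.Agent.S48WG

open AlgebraicCurve IntermediateField Fermat.Agent.GoodRedBranch

/-- the stabiliser of `φ F`. -/
def brStab {K F L Γ : Type*} [Field K] [Field F] [Algebra K F] [Field L] [Algebra K L]
    [Group Γ] [MulSemiringAction Γ L] (φ : F →ₐ[K] L) : Subgroup Γ where
  carrier := {g | ∀ x : F, g • φ x = φ x}
  one_mem' := fun x => one_smul _ _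
  mul_mem' := by
    intro a b ha hb x
    show (a * b) • φ x = φ x
    rw [mul_smul, hb x, ha x]
  inv_mem' := by
    intro a ha x
    show a⁻¹ • φ x = φ x
    rw [inv_smul_eq_iff, ha x]

/-- **an unramified fibre**: `#{v | v(j - c) > 0} = [F : K(j)]`. -/
theorem br_card_of_hom
    {K F L Γ : Type*} [Field K] [IsAlgClosed K] [CharZero K]
    [Field F] [Algebra K F] [Field L] [Algebra K L]
    [Group Γ] [MulSemiringAction Γ L] [SMulCommClass Γ K L]
    (φ : F →ₐ[K] L) (j : F) (jL : L) (hφj : φ j = jL)
    (htr : Transcendental K jL)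
    (hfin : ∃ Γ' : Subgroup Γ, Γ'.FiniteIndex ∧ ∀ g ∈ Γ', ∀ x : L, g • x = x)
    (hj : ∀ g : Γ, g • jL = jL)
    (hfix : ∀ x : L, (∀ g : Γ, g • x = x) → x ∈ IntermediateField.adjoin K {jL})
    (c : K) (w : Valuation L (WithZero (Multiplicative ℤ)))
    (hwK : ∀ a : K, a ≠ 0 → w (algebraMap K L a) = 1)
    (hw : w (jL - algebraMap K L c) = WithZero.exp (-(1 : ℤ))) :
    Nat.card {v : Place K F // 0 < v.ord (j - algebraMap K F c)} = Module.finrank K⟮j⟯ F := by
  obtain ⟨hrank, hfib, -⟩ := card_fibre_of_hom φ j jL hφj htr hfin hj hfix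
    (brStab (Γ := Γ) φ) (fun _ => Iff.rfl)
  obtain ⟨h1, h2⟩ := hfib c w 1 (1 : Γ) hwK one_pos (by simpa using hw)
    (fun x => by rw [one_smul])
    (fun k => by
      constructor
      · intro _
        exact one_dvd _
      · intro _ x
        rw [one_zpow, one_smul])
  rw [h1, h2 rfl, hrank]

end Fermat.Agent.S48WG
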