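/-
S48 wall (W), block G-RED, seat G-BRANCH (helper7), part VAL: the valuations at the points of `ℍ`
of helper24's ambient field `LHb M` over `ℚ̄` (`S48/W/G/Kron/Amb.lean`), the transcendence of `j`,
and the local point above `j = c`, `c ≠ 0, 1728`.
Port of helper36's `S48/W/A/Dict/AmbVal.lean` / `AmbInv.lean` / `AmbLoc.lean` (over `ℂ`).
-/
import Mathlib
import Fermat.Agent.S48.W.G.Kron.Amb
import Fermat.Agent.S24.Val
import Fermat.Agent.S24.JLocal
import Fermat.Agent.S24.Invariants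

set_option autoImplicit false

noncomputable section

namespace Fermat.Agent.S48WG

open UpperHalfPlane Fermat.Agent.S24 Fermat.Agent.S48WKron Fermat.Agent.S24Inv
open scoped MatrixGroups Manifold

/-- The valuation `exp (- ord_{τ₀})` of `AHb M`. -/
def brValAHb (M : ℕ) [NeZero M] (τ₀ : ℍ) : Valuation (AHb M) (WithZero (Multiplicative ℤ)) where
  toFun f := expNeg (ordAt τ₀ (f : Fun))
  map_zero' := by
    show expNeg (ordAt τ₀ (0 : Fun)) = 0
    rw [ordAt_zero, expNeg_top]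
  map_one' := by
    show expNeg (ordAt τ₀ (1 : Fun)) = 1
    rw [ordAt_one, expNeg_zero]
  map_mul' f g := by
    show expNeg (ordAt τ₀ ((f : Fun) * (g : Fun))) = _
    rw [(isHol_of_mem_AHb f.2).ordAt_mul (isHol_of_mem_AHb g.2), expNeg_add]
  map_add_le_max' f g := by
    show expNeg (ordAt τ₀ ((f : Fun) + (g : Fun))) ≤ _
    exact expNeg_le_max_of_min_le (min_ordAt_le_add _ _ τ₀)

theorem brValAHb_apply (M : ℕ) [NeZero M] (τ₀ : ℍ) (f : AHb M) :
    brValAHb M τ₀ f = expNeg (ordAt τ₀ (f : Fun)) := rfl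

theorem brValAHb_eq_zero_iff (M : ℕ) [NeZero M] (τ₀ : ℍ) (f : AHb M) :
    brValAHb M τ₀ f = 0 ↔ f = 0 := by
  rw [brValAHb_apply, expNeg_eq_zero_iff, (isHol_of_mem_AHb f.2).ordAt_eq_top_iff]
  exact ⟨fun h => Subtype.ext h, fun h => congrArg Subtype.val h⟩

theorem br_nonZeroDivisors_le_supp (M : ℕ) [NeZero M] (τ₀ : ℍ) :
    nonZeroDivisors (AHb M) ≤ (brValAHb M τ₀).supp.primeCompl := by
  intro f hf hmem
  rw [SetLike.mem_coe, Valuation.mem_supp_iff, brValAHb_eq_zero_iff] at hmem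
  exact nonZeroDivisors.ne_zero hf hmem

/-- **The valuation `exp (- ord_{τ₀})` of `LHb M`.** -/
def brValLHb (M : ℕ) [NeZero M] (τ₀ : ℍ) : Valuation (LHb M) (WithZero (Multiplicative ℤ)) :=
  (brValAHb M τ₀).extendToLocalization (br_nonZeroDivisors_le_supp M τ₀) (LHb M)

@[simp] theorem brValLHb_algebraMap (M : ℕ) [NeZero M] (τ₀ : ℍ) (f : AHb M) :
    brValLHb M τ₀ (algebraMap (AHb M) (LHb M) f) = brValAHb M τ₀ f :=
  Valuation.extendToLocalization_apply_map_apply _ _ _ f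

theorem brValLHb_ofFun (M : ℕ) [NeZero M] (τ₀ : ℍ) (f : Fun) (hf : IsAHb M f) :
    brValLHb M τ₀ (LHb.ofFun f hf) = expNeg (ordAt τ₀ f) :=
  brValLHb_algebraMap M τ₀ ⟨f, hf⟩

theorem brValAHb_smul (M : ℕ) [NeZero M] {τ₀ : ℍ} (γ : SL(2, ℤ)) (hγ : γ • τ₀ = τ₀)
    (f : AHb M) : brValAHb M τ₀ (γ • f) = brValAHb M τ₀ f := by
  rw [brValAHb_apply, brValAHb_apply, AHb.coe_smul, (isHol_of_mem_AHb f.2).ordAt_smul γ hγ]

theorem brValLHb_smul (M : ℕ) [NeZero M] {τ₀ : ℍ} (γ : SL(2, ℤ)) (hγ : γ • τ₀ = τ₀)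
    (x : LHb M) : brValLHb M τ₀ (γ • x) = brValLHb M τ₀ x := by
  obtain ⟨a, b, hb, rfl⟩ := IsFractionRing.div_surjective (A := AHb M) x
  rw [smul_div₀', LHb.smul_algebraMap, LHb.smul_algebraMap, map_div₀, map_div₀,
    brValLHb_algebraMap, brValLHb_algebraMap, brValLHb_algebraMap, brValLHb_algebraMap,
    brValAHb_smul M γ hγ, brValAHb_smul M γ hγ]

theorem brValLHb_algebraMap_K (M : ℕ) [NeZero M] (τ₀ : ℍ) {a : Kbar} (ha : a ≠ 0) :
    brValLHb M τ₀ (algebraMap Kbar (LHb M) a) = 1 := by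
  rw [IsScalarTower.algebraMap_apply Kbar (AHb M) (LHb M), brValLHb_algebraMap, brValAHb_apply]
  show expNeg (ordAt τ₀ (algebraMap Kbar Fun a)) = 1
  rw [ordAt_algebraMap τ₀ ha, expNeg_zero]

/-- The valuation of `j - c` at `τ₀` from the analytic order. -/
theorem brValLHb_jLHb_sub (M : ℕ) [NeZero M] (τ₀ : ℍ) (c : Kbar) (k : ℕ)
    (h : analyticOrderAt (fun z : ℂ => jFun (ofComplex z) - iota c) (τ₀ : ℂ) = (k : ℕ∞)) :
    brValLHb M τ₀ (jLHb M - algebraMap Kbar (LHb M) c) = WithZero.exp (-(k : ℤ)) := by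
  have e : jLHb M - algebraMap Kbar (LHb M) c
      = algebraMap (AHb M) (LHb M) (jAHb M - algebraMap Kbar (AHb M) c) := by
    rw [map_sub, ← IsScalarTower.algebraMap_apply Kbar (AHb M) (LHb M)]
    rfl
  rw [e, brValLHb_algebraMap, brValAHb_apply]
  have h' : ordAt τ₀ ((jAHb M - algebraMap Kbar (AHb M) c : AHb M) : Fun) = (k : ℕ∞) := h
  rw [h', expNeg_coe]

/-! ### `j` is transcendental -/

/-- the expansion of `j` at `∞` in `LHb M`. -/
theorem br_expLHb_jLHb (M : ℕ) [NeZero M] :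
    expLHb M (jLHb M) = ModularCurve.qExpand Kbar M (ModularCurve.jqModC Kbar) := by
  unfold jLHb
  rw [expLHb_algebraMap]
  exact expAHb_eq (f := jAHb M) (hasExp_jFun M)

/-- `j` is transcendental over `ℚ̄` in `LHb M` (it has a pole at `∞`). -/
theorem br_transcendental_jLHb (M : ℕ) [NeZero M] : Transcendental Kbar (jLHb M) := by
  intro halg
  have hint : IsIntegral Kbar (jLHb M) := halg.isIntegral
  have hirr := minpoly.irreducible hint
  have hdeg := IsAlgClosed.degree_eq_one_of_irreducible Kbar hirr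
  obtain ⟨c, hc⟩ := minpoly.mem_range_of_degree_eq_one Kbar (jLHb M) hdeg
  have h1 : expLHb M (jLHb M) = algebraMap Kbar (LaurentSeries Kbar) c := by
    rw [← hc]
    exact (expLHb M).commutes c
  rw [br_expLHb_jLHb] at h1
  have h2 := coeff_qExpand_jqModC_pow M 1
  rw [pow_one, h1, algebraMap_eq_single, HahnSeries.coeff_single_of_ne] at h2
  · exact zero_ne_one h2
  · have hM : (M : ℤ) ≠ 0 := by exact_mod_cast NeZero.ne M
    intro h
    apply hM
    have : (M : ℤ) * ((1 : ℕ) : ℤ) = 0 := by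
      have := congrArg (fun t : ℤ => -t) h
      simpa using this
    simpa using this

/-! ### the local point above `j = c` -/

/-- a point of `ℍ` above `j = c`, `c ≠ 0, 1728`, at which `j - c` is a local parameter. -/
theorem br_exists_local_point (M : ℕ) [NeZero M] (c : Kbar) (hc0 : c ≠ 0) (hc1 : c ≠ 1728) :
    ∃ τ : ℍ, jFun τ = iota c ∧
      brValLHb M τ (jLHb M - algebraMap Kbar (LHb M) c) = WithZero.exp (-(1 : ℤ)) := by
  obtain ⟨τ₀, hτ₀⟩ := JLocal.jFun_surjective (iota c)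
  have h0 : jFun τ₀ ≠ 0 := by
    rw [hτ₀]
    intro h
    exact hc0 (iota_injective (by rw [h, map_zero]))
  have h1 : jFun τ₀ ≠ 1728 := by
    rw [hτ₀]
    intro h
    apply hc1
    apply iota_injective
    rw [h]
    exact (map_ofNat iota 1728).symm
  refine ⟨τ₀, hτ₀, ?_⟩
  have := brValLHb_jLHb_sub M τ₀ c 1 (by
    rw [← hτ₀]
    exact_mod_cast JLocal.analyticOrderAt_jFun_sub τ₀ h0 h1)
  simpa using this

/-- the valuation needed by `br_card_of_hom`. -/
theorem br_exists_val (M : ℕ) [NeZero M] (c : Kbar) (hc0 : c ≠ 0) (hc1 : c ≠ 1728) :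
    ∃ w : Valuation (LHb M) (WithZero (Multiplicative ℤ)),
      (∀ a : Kbar, a ≠ 0 → w (algebraMap Kbar (LHb M) a) = 1) ∧
      w (jLHb M - algebraMap Kbar (LHb M) c) = WithZero.exp (-(1 : ℤ)) := by
  obtain ⟨τ, -, hτ⟩ := br_exists_local_point M c hc0 hc1
  exact ⟨brValLHb M τ, fun a ha => brValLHb_algebraMap_K M τ ha, hτ⟩

end Fermat.Agent.S48WG
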