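/-
S48 wall (W), block G-RED, seat G-BRANCH (helper7), part COUNT: the unramified fibres, GENERIC.

`F` any field over `ℚ̄` with an embedding `φ : F →ₐ[ℚ̄] LHb M` into helper24's ambient field
(`S48/W/G/Kron/Amb.lean`; convention of hub A1: expansions in `u = e(τ/M)`), `x : F` with
`φ x = j`.  Then for every `c ≠ 0, 1728` the fibre of `x` over `c` has `[F : ℚ̄(x)]` places:

* `br_finiteDimensional_of_emb`, `br_transcendental_of_emb`, `br_isSeparable_of_emb`;
* `br_card_of_emb`       : places form;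
* `br_fibreCard_of_emb`  : `GoodRed.fibreCard` form;
* `brS`, `br_hunram_of_emb` : the hypothesis `hunram` of `genusFF_eq_of_branch` (G-GENUS), with
  `S = {0, 1728}`.
-/
import Mathlib
import Fermat.Agent.S48.W.G.Red.Branch.Val
import Fermat.Agent.S48.W.G.Red.Branch.Hom
import Fermat.Agent.Lib.GoodRed.Places

set_option autoImplicit false
set_option linter.style.haveILetI false

noncomputable section

namespace Fermat.Agent.S48WG

open UpperHalfPlane AlgebraicCurve IntermediateField Fermat.Agent.S24 Fermat.Agent.S48WKron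
open scoped MatrixGroups

variable {F : Type} [Field F] [Algebra Kbar F] {M : ℕ} [NeZero M]

/-- `x` is transcendental. -/
theorem br_transcendental_of_emb (φ : F →ₐ[Kbar] LHb M) (x : F) (hφx : φ x = jLHb M) :
    Transcendental Kbar x := by
  intro h
  apply br_transcendental_jLHb M
  rw [← hφx]
  exact IsAlgebraic.algHom φ h

/-- `F / ℚ̄(x)` is finite. -/
theorem br_finiteDimensional_of_emb (φ : F →ₐ[Kbar] LHb M) (x : F) (hφx : φ x = jLHb M) :
    FiniteDimensional Kbar⟮x⟯ F := by
  letI : Algebra F (LHb M) := φ.toRingHom.toAlgebra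
  haveI : IsScalarTower Kbar F (LHb M) :=
    IsScalarTower.of_algebraMap_eq (fun a => (φ.commutes a).symm)
  have hmap : ∀ y : F, algebraMap F (LHb M) y = φ y := fun _ => rfl
  have hj' : ∀ g : SL(2, ℤ), g • algebraMap F (LHb M) x = algebraMap F (LHb M) x := by
    rw [hmap, hφx]
    exact smul_jLHb M
  have hfix' : ∀ y : LHb M, (∀ g : SL(2, ℤ), g • y = y) →
      y ∈ IntermediateField.adjoin Kbar {algebraMap F (LHb M) x} := by
    rw [hmap, hφx]
    exact mem_adjoin_jLHb_of_invariant M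
  exact (Fermat.Agent.S24Gal.finrank_eq_index x (exists_finiteIndex_fixing_LHb M) hj' hfix'
    (brStab (Γ := SL(2, ℤ)) φ) (fun _ => Iff.rfl)).1

/-- `F / ℚ̄(x)` is separable (characteristic `0`). -/
theorem br_isSeparable_of_emb (φ : F →ₐ[Kbar] LHb M) (x : F) (hφx : φ x = jLHb M) :
    Algebra.IsSeparable Kbar⟮x⟯ F := by
  haveI := br_finiteDimensional_of_emb φ x hφx
  infer_instance

/-- **(G-BRANCH, places form)** the fibre of `x` over `c ≠ 0, 1728` has `[F : ℚ̄(x)]` places. -/
theorem br_card_of_emb (φ : F →ₐ[Kbar] LHb M) (x : F) (hφx : φ x = jLHb M)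
    (c : Kbar) (hc0 : c ≠ 0) (hc1 : c ≠ 1728) :
    Nat.card {v : Place Kbar F // 0 < v.ord (x - algebraMap Kbar F c)} =
      Module.finrank Kbar⟮x⟯ F := by
  obtain ⟨w, hwK, hw⟩ := br_exists_val M c hc0 hc1
  exact br_card_of_hom φ x (jLHb M) hφx (br_transcendental_jLHb M)
    (exists_finiteIndex_fixing_LHb M) (smul_jLHb M) (mem_adjoin_jLHb_of_invariant M) c w hwK hw

/-- **(G-BRANCH, `fibreCard` form)**. -/
theorem br_fibreCard_of_emb (φ : F →ₐ[Kbar] LHb M) (x : F) (hφx : φ x = jLHb M)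
    (c : Kbar) (hc0 : c ≠ 0) (hc1 : c ≠ 1728) :
    Fermat.Agent.GoodRed.fibreCard Kbar x c = Module.finrank Kbar⟮x⟯ F := by
  haveI := br_finiteDimensional_of_emb φ x hφx
  haveI := br_isSeparable_of_emb φ x hφx
  rw [Fermat.Agent.GoodRed.fibreCard_eq_card_zeros (br_transcendental_of_emb φ x hφx) c]
  exact br_card_of_emb φ x hφx c hc0 hc1

/-- the branch values `{0, 1728}`. -/
def brS : Finset Kbar := {0, 1728}

theorem mem_brS {c : Kbar} : c ∈ brS ↔ c = 0 ∨ c = 1728 := by
  classical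
  simp [brS]

/-- **(G-BRANCH)** the hypothesis `hunram` of `genusFF_eq_of_branch`, `S = {0, 1728}`. -/
theorem br_hunram_of_emb (φ : F →ₐ[Kbar] LHb M) (x : F) (hφx : φ x = jLHb M) :
    ∀ c : Kbar, c ∉ brS →
      Fermat.Agent.GoodRed.fibreCard Kbar x c = Module.finrank Kbar⟮x⟯ F := by
  intro c hc
  rw [mem_brS, not_or] at hc
  exact br_fibreCard_of_emb φ x hφx c hc.1 hc.2

end Fermat.Agent.S48WG
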