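/-
S48 wall (W), block G-RED, seat G-BRANCH (helper7), part SHYP: the hypotheses on the set of branch
values `S = brS = {0, 1728}` of `genusFF_eq_of_branch` (G-GENUS), for a valuation ring `A` of `ℚ̄`
over a prime `ℓ ≥ 5`:

* `brS_mem`  : `S ⊆ A`;
* `brS_inj`  : the residues of the elements of `S` are distinct;
* `brS_unit` : the nonzero elements of `S` are units of `A`.
-/
import Mathlib
import Fermat.Agent.S48.W.G.Red.Branch.Count
import Fermat.Agent.Lib.GaussInt.FrobFormal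

set_option autoImplicit false

noncomputable section

namespace Fermat.Agent.S48WG

open Fermat.Agent.S24

variable (A : ValuationSubring Kbar)

theorem br_natCast_mem (n : ℕ) : (n : Kbar) ∈ A := by
  have : ((n : A) : Kbar) = (n : Kbar) := by simp
  rw [← this]
  exact (n : A).2

theorem br_1728_mem : (1728 : Kbar) ∈ A := by
  have := br_natCast_mem A 1728
  simpa using this

/-- `S ⊆ A`. -/
theorem brS_mem : ∀ c ∈ brS, c ∈ A := by
  intro c hc
  rcases mem_brS.mp hc with rfl | rfl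
  · exact A.zero_mem
  · exact br_1728_mem A

variable {A}

/-- `1728` is not zero in the residue field, `ℓ ≥ 5`. -/
theorem br_residue_1728_ne_zero {ℓ : ℕ} (hℓ : ℓ.Prime) (h5 : 5 ≤ ℓ) (hA : A.LiesOverPrime ℓ)
    (h : (1728 : Kbar) ∈ A) : IsLocalRing.residue A ⟨1728, h⟩ ≠ 0 := by
  haveI := Fermat.Agent.GaussIntFP.charP_residue_of_liesOver A hℓ hA
  have h1 : (⟨1728, h⟩ : A) = ((1728 : ℕ) : A) := by
    apply Subtype.ext
    show (1728 : Kbar) = (((1728 : ℕ) : A) : Kbar)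
    push_cast
    rfl
  rw [h1, map_natCast]
  intro h0
  have hdvd : ℓ ∣ 1728 := (CharP.cast_eq_zero_iff (IsLocalRing.ResidueField A) ℓ 1728).mp h0
  have h2 : (1728 : ℕ) = 2 ^ 6 * 3 ^ 3 := by norm_num
  rw [h2] at hdvd
  rcases (Nat.Prime.dvd_mul hℓ).mp hdvd with h3 | h3
  · have := (Nat.prime_dvd_prime_iff_eq hℓ Nat.prime_two).mp (hℓ.dvd_of_dvd_pow h3)
    omega
  · have := (Nat.prime_dvd_prime_iff_eq hℓ Nat.prime_three).mp (hℓ.dvd_of_dvd_pow h3)
    omega

/-- the residues of the elements of `S` are distinct. -/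
theorem brS_inj {ℓ : ℕ} (hℓ : ℓ.Prime) (h5 : 5 ≤ ℓ) (hA : A.LiesOverPrime ℓ) :
    ∀ c ∈ brS, ∀ c' ∈ brS, ∀ (hc : c ∈ A) (hc' : c' ∈ A),
      IsLocalRing.residue A ⟨c, hc⟩ = IsLocalRing.residue A ⟨c', hc'⟩ → c = c' := by
  intro c hcS c' hcS' hc hc' h
  have hz : ∀ (h0 : (0 : Kbar) ∈ A), IsLocalRing.residue A ⟨0, h0⟩ = 0 := fun h0 => by
    have : (⟨0, h0⟩ : A) = 0 := rfl
    rw [this, map_zero]
  rcases mem_brS.mp hcS with rfl | rfl <;> rcases mem_brS.mp hcS' with rfl | rfl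
  · rfl
  · exfalso
    rw [hz] at h
    exact br_residue_1728_ne_zero hℓ h5 hA hc' h.symm
  · exfalso
    rw [hz] at h
    exact br_residue_1728_ne_zero hℓ h5 hA hc h
  · rfl

/-- the nonzero elements of `S` are units of `A`. -/
theorem brS_unit {ℓ : ℕ} (hℓ : ℓ.Prime) (h5 : 5 ≤ ℓ) (hA : A.LiesOverPrime ℓ) :
    ∀ c ∈ brS, c ≠ 0 → c⁻¹ ∈ A := by
  intro c hcS hc0
  rcases mem_brS.mp hcS with rfl | rfl
  · exact absurd rfl hc0
  · have hmem := br_1728_mem A
    have hres := br_residue_1728_ne_zero hℓ h5 hA hmem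
    have hunit : IsUnit (⟨1728, hmem⟩ : A) := by
      by_contra hnu
      apply hres
      rw [IsLocalRing.residue_eq_zero_iff]
      exact (IsLocalRing.mem_maximalIdeal _).mpr hnu
    obtain ⟨u, hu⟩ := hunit
    have h1 : ((u⁻¹ : Aˣ) : A) * (⟨1728, hmem⟩ : A) = 1 := by
      rw [← hu]
      exact Units.inv_mul u
    have h2 : (((u⁻¹ : Aˣ) : A) : Kbar) * 1728 = 1 := by
      have := congrArg (fun t : A => (t : Kbar)) h1
      simpa using this
    have h3 : (1728 : Kbar)⁻¹ = (((u⁻¹ : Aˣ) : A) : Kbar) := by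
      rw [inv_eq_iff_eq_inv]
      exact (eq_inv_of_mul_eq_one_right h2)
    rw [h3]
    exact ((u⁻¹ : Aˣ) : A).2

end Fermat.Agent.S48WG
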