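/-
S48 wall (W), block G-RED, seat G-BRANCH, split VAL (helper98): the VALUATIONS and LOCAL DATA of
the ambient field `LHb M` over `ℚ̄` (helper24, `S48/W/G/Kron/Amb.lean`; A1 convention:
`expLHb M (jLHb M) = j(u^M)`).

* `valLHb M τ₀` (order of vanishing at `τ₀ ∈ ℍ`), `winfHb M` (order at `∞` in `u = exp(2πiτ/M)`);
* `embLLb M : LL M →ₐ[ℚ̄] LHb M`, the periods of `S`, `S * T`, `T` on `LHb M`;
* `exists_local_datum_LHb` : the local datum `(w, s, g)` above every `c : ℚ̄` (as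
  `S24.exists_local_datum`, for `LHb M`);  `exists_inf_datum_LHb` : the datum at `∞`;
* `transcendental_jLHb`.
These are exactly the inputs of `GoodRedBranch.card_fibre_of_hom` / `br_card_of_hom`.

Port of helper36's `S48/W/A/Dict/AmbVal.lean` and helper53's `Dict/AmbLoc.lean` (both over `ℂ`)
and of `S24/LocalDatum.lean`.
-/
import Mathlib
import Fermat.Agent.S48.W.G.Kron.Amb
import Fermat.Agent.S24.Val
import Fermat.Agent.S24.ValInf
import Fermat.Agent.S24.LocalDatum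
import Fermat.Agent.S24.Periods
import Fermat.Agent.F3.Dict.ValSmul

set_option autoImplicit false

noncomputable section

namespace Fermat.Agent.S48WGVal

open UpperHalfPlane ModularGroup Fermat.Agent.S24 Fermat.Agent.S48WKron
open scoped MatrixGroups Manifold

/-! ### the order at a point of `ℍ` -/

/-- The valuation `exp (- ord_{τ₀})` of `AHb M`. -/
def valAHb (M : ℕ) [NeZero M] (τ₀ : ℍ) : Valuation (AHb M) (WithZero (Multiplicative ℤ)) where
  toFun f := expNeg (ordAt τ₀ (f : Fun))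
  map_zero' := by
    show expNeg (ordAt τ₀ (0 : Fun)) = 0
    rw [ordAt_zero, expNeg_top]
  map_one' := by
    show expNeg (ordAt τ₀ (1 : Fun)) = 1
    rw [ordAt_one, expNeg_zero]
  map_mul' f g := by
    show expNeg (ordAt τ₀ ((f : Fun) * (g : Fun))) = _
    rw [(isHol_of_mem_AHb f.2).ordAt_mul (isHol_of_mem_AHb g.2), expNeg_add]
  map_add_le_max' f g := by
    show expNeg (ordAt τ₀ ((f : Fun) + (g : Fun))) ≤ _
    exact expNeg_le_max_of_min_le (min_ordAt_le_add _ _ τ₀)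

theorem valAHb_apply (M : ℕ) [NeZero M] (τ₀ : ℍ) (f : AHb M) :
    valAHb M τ₀ f = expNeg (ordAt τ₀ (f : Fun)) := rfl

theorem valAHb_eq_zero_iff (M : ℕ) [NeZero M] (τ₀ : ℍ) (f : AHb M) : valAHb M τ₀ f = 0 ↔ f = 0 := by
  rw [valAHb_apply, expNeg_eq_zero_iff, (isHol_of_mem_AHb f.2).ordAt_eq_top_iff]
  exact ⟨fun h => Subtype.ext h, fun h => congrArg Subtype.val h⟩

theorem valAHb_smul (M : ℕ) [NeZero M] {τ₀ : ℍ} (γ : SL(2, ℤ)) (hγ : γ • τ₀ = τ₀) (f : AHb M) :
    valAHb M τ₀ (γ • f) = valAHb M τ₀ f := by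
  rw [valAHb_apply, valAHb_apply, AHb.coe_smul, (isHol_of_mem_AHb f.2).ordAt_smul γ hγ]

theorem valAHb_smul_eq (M : ℕ) [NeZero M] (γ : SL(2, ℤ)) (τ₀ : ℍ) (f : AHb M) :
    valAHb M τ₀ (γ • f) = valAHb M (γ⁻¹ • τ₀) f := by
  rw [valAHb_apply, valAHb_apply, AHb.coe_smul, Fermat.Agent.F3Places.ordAt_smul_eq (isHol_of_mem_AHb f.2) γ τ₀]

theorem nonZeroDivisors_le_valAHb_supp (M : ℕ) [NeZero M] (τ₀ : ℍ) :
    nonZeroDivisors (AHb M) ≤ (valAHb M τ₀).supp.primeCompl := by
  intro f hf hmem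
  rw [SetLike.mem_coe, Valuation.mem_supp_iff, valAHb_eq_zero_iff] at hmem
  exact nonZeroDivisors.ne_zero hf hmem

/-- **The valuation `exp (- ord_{τ₀})` of `LHb M`.** -/
def valLHb (M : ℕ) [NeZero M] (τ₀ : ℍ) : Valuation (LHb M) (WithZero (Multiplicative ℤ)) :=
  (valAHb M τ₀).extendToLocalization (nonZeroDivisors_le_valAHb_supp M τ₀) (LHb M)

@[simp] theorem valLHb_algebraMap (M : ℕ) [NeZero M] (τ₀ : ℍ) (f : AHb M) :
    valLHb M τ₀ (algebraMap (AHb M) (LHb M) f) = valAHb M τ₀ f :=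
  Valuation.extendToLocalization_apply_map_apply _ _ _ f

theorem valLHb_ofFun (M : ℕ) [NeZero M] (τ₀ : ℍ) (f : Fun) (hf : IsAHb M f) :
    valLHb M τ₀ (LHb.ofFun f hf) = expNeg (ordAt τ₀ f) :=
  valLHb_algebraMap M τ₀ ⟨f, hf⟩

theorem valLHb_smul (M : ℕ) [NeZero M] {τ₀ : ℍ} (γ : SL(2, ℤ)) (hγ : γ • τ₀ = τ₀) (x : LHb M) :
    valLHb M τ₀ (γ • x) = valLHb M τ₀ x := by
  obtain ⟨a, b, hb, rfl⟩ := IsFractionRing.div_surjective (A := AHb M) x
  rw [smul_div₀', LHb.smul_algebraMap, LHb.smul_algebraMap, map_div₀, map_div₀,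
    valLHb_algebraMap, valLHb_algebraMap, valLHb_algebraMap, valLHb_algebraMap,
    valAHb_smul M γ hγ, valAHb_smul M γ hγ]

/-- the valuations `valLHb M τ` are permuted by `SL(2,ℤ)`. -/
theorem valLHb_smul_eq (M : ℕ) [NeZero M] (γ : SL(2, ℤ)) (τ₀ : ℍ) (x : LHb M) :
    valLHb M τ₀ (γ • x) = valLHb M (γ⁻¹ • τ₀) x := by
  obtain ⟨a, b, hb, rfl⟩ := IsFractionRing.div_surjective (A := AHb M) x
  rw [smul_div₀', LHb.smul_algebraMap, LHb.smul_algebraMap, map_div₀, map_div₀,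
    valLHb_algebraMap, valLHb_algebraMap, valLHb_algebraMap, valLHb_algebraMap,
    valAHb_smul_eq M γ τ₀, valAHb_smul_eq M γ τ₀]

theorem valLHb_algebraMap_K (M : ℕ) [NeZero M] (τ₀ : ℍ) {a : Kbar} (ha : a ≠ 0) :
    valLHb M τ₀ (algebraMap Kbar (LHb M) a) = 1 := by
  rw [IsScalarTower.algebraMap_apply Kbar (AHb M) (LHb M), valLHb_algebraMap, valAHb_apply]
  show expNeg (ordAt τ₀ (algebraMap Kbar Fun a)) = 1
  rw [ordAt_algebraMap τ₀ ha, expNeg_zero]

/-- The valuation of `j - c` at `τ₀` from the analytic order. -/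
theorem valLHb_jLHb_sub (M : ℕ) [NeZero M] (τ₀ : ℍ) (c : Kbar) (k : ℕ)
    (h : analyticOrderAt (fun z : ℂ => jFun (ofComplex z) - iota c) (τ₀ : ℂ) = (k : ℕ∞)) :
    valLHb M τ₀ (jLHb M - algebraMap Kbar (LHb M) c) = WithZero.exp (-(k : ℤ)) := by
  have e : jLHb M - algebraMap Kbar (LHb M) c
      = algebraMap (AHb M) (LHb M) (jAHb M - algebraMap Kbar (AHb M) c) := by
    rw [map_sub, ← IsScalarTower.algebraMap_apply Kbar (AHb M) (LHb M)]
    rfl
  rw [e, valLHb_algebraMap, valAHb_apply]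
  have h' : ordAt τ₀ ((jAHb M - algebraMap Kbar (AHb M) c : AHb M) : Fun) = (k : ℕ∞) := h
  rw [h', expNeg_coe]

/-! ### the order at `∞` -/

/-- The order at `∞` as a valuation of `AHb M`. -/
def winfAHb (M : ℕ) [NeZero M] : Valuation (AHb M) (WithZero (Multiplicative ℤ)) :=
  (Valued.v : Valuation (LaurentSeries Kbar) (WithZero (Multiplicative ℤ))).comap
    (expAHb M).toRingHom

theorem winfAHb_apply (M : ℕ) [NeZero M] (f : AHb M) : winfAHb M f = Valued.v (expAHb M f) := rfl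

theorem winfAHb_eq_zero_iff (M : ℕ) [NeZero M] (f : AHb M) : winfAHb M f = 0 ↔ f = 0 := by
  rw [winfAHb_apply, Valuation.zero_iff]
  exact map_eq_zero_iff _ (expAHb_injective M)

theorem nonZeroDivisors_le_winfAHb_supp (M : ℕ) [NeZero M] :
    nonZeroDivisors (AHb M) ≤ (winfAHb M).supp.primeCompl := by
  intro f hf hmem
  rw [SetLike.mem_coe, Valuation.mem_supp_iff, winfAHb_eq_zero_iff] at hmem
  exact nonZeroDivisors.ne_zero hf hmem

theorem winfAHb_T_smul (M : ℕ) [NeZero M] (f : AHb M) :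
    winfAHb M (ModularGroup.T • f) = winfAHb M f := by
  obtain ⟨b, hb, ζ, hζ, hcoeff⟩ := (hasExp_expAHb f).T_smul
  have hb' : HasExp M ((ModularGroup.T • f : AHb M) : Fun) b := hb
  rw [winfAHb_apply, winfAHb_apply, expAHb_eq hb']
  have hζ0 : ζ ≠ 0 := by
    rintro rfl
    rw [map_zero] at hζ
    exact Complex.exp_ne_zero _ hζ.symm
  refine laurent_valuation_eq_of_coeff_iff fun n => ?_
  rw [hcoeff n]
  constructor
  · intro h
    exact (mul_eq_zero.mp h).resolve_left (zpow_ne_zero n (inv_ne_zero hζ0))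
  · intro h
    rw [h, mul_zero]

/-- **The order at `∞` (in `u = exp(2πiτ/M)`) as a valuation of `LHb M`.** -/
def winfHb (M : ℕ) [NeZero M] : Valuation (LHb M) (WithZero (Multiplicative ℤ)) :=
  (winfAHb M).extendToLocalization (nonZeroDivisors_le_winfAHb_supp M) (LHb M)

theorem winfHb_algebraMap (M : ℕ) [NeZero M] (f : AHb M) :
    winfHb M (algebraMap (AHb M) (LHb M) f) = winfAHb M f :=
  Valuation.extendToLocalization_apply_map_apply _ _ _ f

theorem winfHb_ofFun (M : ℕ) [NeZero M] (f : Fun) (hf : IsAHb M f) {a : LaurentSeries Kbar}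
    (h : HasExp M f a) : winfHb M (LHb.ofFun f hf) = Valued.v a := by
  unfold LHb.ofFun
  rw [winfHb_algebraMap, winfAHb_apply, expAHb_eq h]

/-- `winfHb` is the `u`-adic valuation of the expansion. -/
theorem winfHb_eq_valued_expLHb (M : ℕ) [NeZero M] (x : LHb M) :
    winfHb M x = Valued.v (expLHb M x) := by
  obtain ⟨a, b, hb, rfl⟩ := IsFractionRing.div_surjective (A := AHb M) x
  rw [map_div₀, map_div₀, winfHb_algebraMap, winfHb_algebraMap, expLHb_algebraMap,
    expLHb_algebraMap, map_div₀, winfAHb_apply, winfAHb_apply]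

theorem winfHb_T_smul (M : ℕ) [NeZero M] (x : LHb M) :
    winfHb M (ModularGroup.T • x) = winfHb M x := by
  obtain ⟨a, b, hb, rfl⟩ := IsFractionRing.div_surjective (A := AHb M) x
  rw [smul_div₀', LHb.smul_algebraMap, LHb.smul_algebraMap, map_div₀, map_div₀,
    winfHb_algebraMap, winfHb_algebraMap, winfHb_algebraMap, winfHb_algebraMap,
    winfAHb_T_smul, winfAHb_T_smul]

theorem winfHb_algebraMap_K (M : ℕ) [NeZero M] {a : Kbar} (ha : a ≠ 0) :
    winfHb M (algebraMap Kbar (LHb M) a) = 1 := by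
  rw [IsScalarTower.algebraMap_apply Kbar (AHb M) (LHb M), winfHb_algebraMap, winfAHb_apply,
    AlgHom.commutes]
  have h := laurent_valuation_eq_of_coeff (f := algebraMap Kbar (LaurentSeries Kbar) a) (D := 0)
    (by simpa [LaurentSeries.algebraMap_apply] using ha)
    (fun n hn => by
      rw [LaurentSeries.algebraMap_apply]
      show (HahnSeries.single (0 : ℤ) a).coeff n = 0
      exact HahnSeries.coeff_single_of_ne hn.ne)
  simpa using h

theorem winfHb_jLHb (M : ℕ) [NeZero M] : winfHb M (jLHb M) = WithZero.exp (M : ℤ) := by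
  rw [winfHb_eq_valued_expLHb, ← jdLHb_one, expLHb_jdLHb, ModularCurve.qExpand_congr (mul_one M),
    laurent_valuation_qExpand_jqModC]


/-! ### the embedding `LL M → LHb M` -/

theorem inclAHb_injective (M : ℕ) [NeZero M] : Function.Injective (inclAHb M) :=
  Subalgebra.inclusion_injective (AL_le_AHb M)

theorem inclAHb_smul (M : ℕ) [NeZero M] (γ : SL(2, ℤ)) (f : AL M) :
    inclAHb M (γ • f) = γ • inclAHb M f := rfl

/-- `AL M → AHb M → LHb M`. -/
def embALb (M : ℕ) [NeZero M] : AL M →ₐ[Kbar] LHb M :=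
  (IsScalarTower.toAlgHom Kbar (AHb M) (LHb M)).comp (inclAHb M)

theorem embALb_apply (M : ℕ) [NeZero M] (f : AL M) :
    embALb M f = algebraMap (AHb M) (LHb M) (inclAHb M f) := rfl

theorem embALb_injective (M : ℕ) [NeZero M] : Function.Injective (embALb M) :=
  (IsFractionRing.injective (AHb M) (LHb M)).comp (inclAHb_injective M)

/-- **the field `LL M` of cluster A inside the ambient field `LHb M`.** -/
def embLLb (M : ℕ) [NeZero M] : LL M →ₐ[Kbar] LHb M :=
  IsFractionRing.liftAlgHom (embALb_injective M)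

theorem embLLb_algebraMap (M : ℕ) [NeZero M] (f : AL M) :
    embLLb M (algebraMap (AL M) (LL M) f) = algebraMap (AHb M) (LHb M) (inclAHb M f) := by
  unfold embLLb
  rw [IsFractionRing.liftAlgHom_apply]
  exact IsFractionRing.lift_algebraMap _ _

theorem embLLb_injective (M : ℕ) [NeZero M] : Function.Injective (embLLb M) :=
  (embLLb M).toRingHom.injective

theorem embLLb_smul (M : ℕ) [NeZero M] (γ : SL(2, ℤ)) (x : LL M) :
    embLLb M (γ • x) = γ • embLLb M x := by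
  obtain ⟨a, b, -, rfl⟩ := IsFractionRing.div_surjective (A := AL M) x
  rw [smul_div₀', LL.smul_algebraMap, LL.smul_algebraMap, map_div₀, map_div₀, smul_div₀',
    embLLb_algebraMap, embLLb_algebraMap, embLLb_algebraMap, embLLb_algebraMap,
    LHb.smul_algebraMap, LHb.smul_algebraMap, inclAHb_smul, inclAHb_smul]

theorem embLLb_jLL (M : ℕ) [NeZero M] : embLLb M (jLL M) = jLHb M := by
  unfold jLL
  rw [embLLb_algebraMap]
  rfl

/-- an element fixing `LHb M` pointwise fixes `LL M` pointwise. -/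
theorem smul_eq_LL_of_smul_eq_LHb (M : ℕ) [NeZero M] (γ : SL(2, ℤ))
    (h : ∀ x : LHb M, γ • x = x) (x : LL M) : γ • x = x := by
  apply embLLb_injective M
  rw [embLLb_smul, h]

/-! ### the periods of `S`, `S * T`, `T` -/

/-- The subgroup of `SL(2,ℤ)` acting trivially on `LHb M`. -/
def fixerLHb (M : ℕ) [NeZero M] : Subgroup SL(2, ℤ) where
  carrier := {γ | ∀ x : LHb M, γ • x = x}
  one_mem' x := one_smul _ x
  mul_mem' {a b} ha hb x := by rw [mul_smul, hb x, ha x]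
  inv_mem' {a} ha x := by
    rw [inv_smul_eq_iff, ha x]

theorem mem_fixerLHb {M : ℕ} [NeZero M] {γ : SL(2, ℤ)} :
    γ ∈ fixerLHb M ↔ ∀ x : LHb M, γ • x = x := Iff.rfl

theorem fixerLHb_le_fixer (M : ℕ) [NeZero M] : fixerLHb M ≤ Periods.fixer M :=
  fun γ h => smul_eq_LL_of_smul_eq_LHb M γ h

/-- An element acting trivially on the upper half plane acts trivially on `LHb M`. -/
theorem mem_fixerLHbb_of_forall_smul (M : ℕ) [NeZero M] (γ : SL(2, ℤ)) (h : ∀ τ : ℍ, γ • τ = τ) :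
    γ ∈ fixerLHb M := by
  have hFun : ∀ f : Fun, γ • f = f := by
    intro f
    ext τ
    rw [Fun.sl_smul_apply]
    congr 1
    rw [inv_smul_eq_iff, h τ]
  have hAH : ∀ f : AHb M, γ • f = f := fun f => Subtype.ext (hFun f)
  intro x
  obtain ⟨a, b, -, rfl⟩ := IsFractionRing.div_surjective (A := AHb M) x
  rw [smul_div₀', LHb.smul_algebraMap, LHb.smul_algebraMap, hAH a, hAH b]

theorem S_sq_mem_fixerLHbb (M : ℕ) [NeZero M] : ModularGroup.S ^ 2 ∈ fixerLHb M := by
  apply mem_fixerLHbb_of_forall_smul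
  intro τ
  rw [pow_two, mul_smul, Periods.S_smul_S_smul]

theorem ST_cube_mem_fixerLHbb (M : ℕ) [NeZero M] :
    (ModularGroup.S * ModularGroup.T) ^ 3 ∈ fixerLHb M := by
  apply mem_fixerLHbb_of_forall_smul
  intro τ
  rw [Periods.ST_pow_three, ModularGroup.SL_neg_smul, one_smul]

theorem S_zpow_smul_eq_iff_LHb (M : ℕ) [NeZero M] (hM : 2 ≤ M) (k : ℤ) :
    (∀ x : LHb M, (ModularGroup.S ^ k) • x = x) ↔ (2 : ℤ) ∣ k :=
  Periods.zpow_mem_iff_of_prime (fixerLHb M) ModularGroup.S 2 Nat.prime_two (S_sq_mem_fixerLHbb M)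
    (fun h => Periods.S_not_mem_fixer M hM (fixerLHb_le_fixer M h)) k

theorem ST_zpow_smul_eq_iff_LHb (M : ℕ) [NeZero M] (hM : 2 ≤ M) (k : ℤ) :
    (∀ x : LHb M, ((ModularGroup.S * ModularGroup.T) ^ k) • x = x) ↔ (3 : ℤ) ∣ k :=
  Periods.zpow_mem_iff_of_prime (fixerLHb M) (ModularGroup.S * ModularGroup.T) 3 Nat.prime_three
    (ST_cube_mem_fixerLHbb M)
    (fun h => Periods.ST_not_mem_fixer M hM (fixerLHb_le_fixer M h)) k

theorem T_zpow_smul_eq_iff_LHb (M : ℕ) [NeZero M] (k : ℤ) :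
    (∀ x : LHb M, (ModularGroup.T ^ k) • x = x) ↔ (M : ℤ) ∣ k := by
  constructor
  · intro h
    exact (T_zpow_smul_eq_iff M k).mp (smul_eq_LL_of_smul_eq_LHb M _ h)
  · intro hk x
    apply Gamma_smul_eq_LHb M
    have := CongruenceSubgroup.ModularGroup_T_pow_mem_Gamma (M : ℤ) k hk
    simpa using this


/-! ### the local data -/

theorem coe_jAHb_sub_algebraMap (M : ℕ) [NeZero M] (c : Kbar) (τ : ℍ) :
    ((jAHb M - algebraMap Kbar (AHb M) c : AHb M) : Fun) τ = jFun τ - iota c := rfl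

/-- **(LD) for `LHb M`.**  The local datum above `j = c`. -/
theorem exists_local_datum_LHb (M : ℕ) [NeZero M] (hM : 2 ≤ M) (c : Kbar) :
    ∃ (w : Valuation (LHb M) (WithZero (Multiplicative ℤ))) (s : ℕ) (g : SL(2, ℤ)),
      (∀ a : Kbar, a ≠ 0 → w (algebraMap Kbar (LHb M) a) = 1) ∧ 0 < s ∧
      w (jLHb M - algebraMap Kbar (LHb M) c) = WithZero.exp (-(s : ℤ)) ∧
      (∀ x : LHb M, w (g • x) = w x) ∧
      (∀ k : ℤ, (∀ x : LHb M, (g ^ k) • x = x) ↔ (s : ℤ) ∣ k) ∧
      (c = 1728 → g = ModularGroup.S ∧ s = 2) ∧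
      (c = 0 → g = ModularGroup.S * ModularGroup.T ∧ s = 3) ∧
      (c ≠ 0 → c ≠ 1728 → s = 1 ∧ g = 1) := by
  have h1728 : (1728 : Kbar) ≠ 0 := by norm_num
  by_cases hc1 : c = 1728
  · -- the elliptic point `i`
    subst hc1
    refine ⟨valLHb M UpperHalfPlane.I, 2, ModularGroup.S,
      fun a ha => valLHb_algebraMap_K M _ ha, by norm_num, ?_,
      fun x => valLHb_smul M _ JLocal.S_smul_I' x, ?_, fun _ => ⟨rfl, rfl⟩,
      fun h => absurd h h1728, fun _ h => absurd rfl h⟩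
    · refine valLHb_jLHb_sub M _ _ 2 ?_
      rw [iota_ofNat_1728]
      exact JLocal.analyticOrderAt_jFun_I
    · intro k
      rw [S_zpow_smul_eq_iff_LHb M hM k]
      norm_num
  by_cases hc0 : c = 0
  · -- the elliptic point `ρ`
    subst hc0
    refine ⟨valLHb M UpperHalfPlane.ρ, 3, ModularGroup.S * ModularGroup.T,
      fun a ha => valLHb_algebraMap_K M _ ha, by norm_num, ?_,
      fun x => valLHb_smul M _ JLocal.ST_smul_rho x, ?_, fun h => absurd h hc1,
      fun _ => ⟨rfl, rfl⟩, fun h _ => absurd rfl h⟩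
    · refine valLHb_jLHb_sub M _ _ 3 ?_
      simp only [map_zero, sub_zero]
      exact JLocal.analyticOrderAt_jFun_rho
    · intro k
      rw [ST_zpow_smul_eq_iff_LHb M hM k]
      norm_num
  · -- a generic point
    obtain ⟨τ₀, hτ₀⟩ := JLocal.jFun_surjective (iota c)
    have h0 : jFun τ₀ ≠ 0 := by
      rw [hτ₀]
      exact (map_ne_zero iota).mpr hc0
    have h1 : jFun τ₀ ≠ 1728 := by
      rw [hτ₀, ← iota_ofNat_1728]
      exact fun h => hc1 (iota.injective h)
    refine ⟨valLHb M τ₀, 1, 1, fun a ha => valLHb_algebraMap_K M _ ha, by norm_num, ?_,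
      fun x => by rw [one_smul], ?_, fun h => absurd h hc1, fun h => absurd h hc0,
      fun _ _ => ⟨rfl, rfl⟩⟩
    · refine valLHb_jLHb_sub M _ _ 1 ?_
      rw [← hτ₀]
      exact_mod_cast JLocal.analyticOrderAt_jFun_sub τ₀ h0 h1
    · intro k
      simp

/-- **the datum at `∞` for `LHb M`.** -/
theorem exists_inf_datum_LHb (M : ℕ) [NeZero M] :
    ∃ (winf : Valuation (LHb M) (WithZero (Multiplicative ℤ))),
      (∀ a : Kbar, a ≠ 0 → winf (algebraMap Kbar (LHb M) a) = 1) ∧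
      winf (jLHb M) = WithZero.exp (M : ℤ) ∧
      (∀ x : LHb M, winf (ModularGroup.T • x) = winf x) ∧
      (∀ k : ℤ, (∀ x : LHb M, (ModularGroup.T ^ k) • x = x) ↔ (M : ℤ) ∣ k) :=
  ⟨winfHb M, fun _ ha => winfHb_algebraMap_K M ha, winfHb_jLHb M, winfHb_T_smul M,
    T_zpow_smul_eq_iff_LHb M⟩

/-! ### `j` is transcendental -/

/-- `j` is transcendental over `ℚ̄` in `LHb M` (it has a pole at `∞`). -/
theorem transcendental_jLHb (M : ℕ) [NeZero M] : Transcendental Kbar (jLHb M) := by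
  intro halg
  have hint : IsIntegral Kbar (jLHb M) := halg.isIntegral
  have hirr := minpoly.irreducible hint
  have hdeg := IsAlgClosed.degree_eq_one_of_irreducible Kbar hirr
  obtain ⟨c, hc⟩ := minpoly.mem_range_of_degree_eq_one Kbar (jLHb M) hdeg
  have h1 := winfHb_jLHb M
  rw [← hc] at h1
  by_cases h0 : c = 0
  · rw [h0, map_zero, map_zero] at h1
    exact WithZero.exp_ne_zero h1.symm
  · rw [winfHb_algebraMap_K M h0, ← WithZero.exp_zero] at h1
    have h2 : (0 : ℤ) = (M : ℤ) := WithZero.exp_injective h1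
    have h3 : M = 0 := by exact_mod_cast h2.symm
    exact NeZero.ne M h3

end Fermat.Agent.S48WGVal
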