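/-
S48 wall (W), block G-RED, seat G-BRANCH, split ELL (helper33): the ELLIPTIC fibres, GENERIC.

`F` any field over `ℚ̄` with an embedding `φ : F →ₐ[ℚ̄] LHb M` into helper24's ambient field,
`x : F` with `φ x = j`, `H = brStab φ` the stabiliser of `φ F` in `SL₂(ℤ)`.

* `br_finrank_eq_index`        : `[F : ℚ̄(x)] = [SL₂(ℤ) : H]`;
* `br_card_zero_eq_orbCount`   : the fibre of `x` over `0` has `orbCount H (S T)` places,
  `br_card_1728_eq_orbCount`   : the fibre over `1728` has `orbCount H S` places;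
* `br_three_mul_orbCount`, `br_two_mul_orbCount` : `3 · orbCount H (S T) = [SL₂(ℤ) : H]` if no
  conjugate of `S T` lies in `H`,  `2 · orbCount H S = [SL₂(ℤ) : H]` if no conjugate of `S` does;
* `br_ell_of_free`   : `3 · #fibre(0) = n`, `2 · #fibre(1728) = n` under these two hypotheses;
* `br_ell_of_trace`  : the same if every element of `H` has trace `≡ ± 2` modulo `M`, `M ≥ 4`
  (e.g. `H ⊆ ± {[1 0; * 1] mod M}`);
* `br_ell_fibreCard_of_free`, `br_ell_fibreCard_of_trace` : the `GoodRed.fibreCard` forms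
  (the hypotheses `h0`, `hu` of `S48WG23.twelve_genusFF_of_fibres`, `u = 1728`).
-/
import Mathlib
import Fermat.Agent.S48.W.G.Red.Branch.Count
import Fermat.Agent.S48.W.G.Red.Branch.AmbValB
import Fermat.Agent.S24.Comb

set_option autoImplicit false
set_option linter.style.haveILetI false

noncomputable section

namespace Fermat.Agent.S48WG

open UpperHalfPlane AlgebraicCurve IntermediateField Fermat.Agent.S24 Fermat.Agent.S48WKron
open Fermat.Agent.GoodRedBranch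
open scoped MatrixGroups

/-! ### orbit counts of an element acting freely on the cosets -/

section Orbits

variable (H : Subgroup SL(2, ℤ))

theorem br_smul_mk_ne (g : SL(2, ℤ)) (hfree : ∀ γ : SL(2, ℤ), γ⁻¹ * g * γ ∉ H)
    (y : SL(2, ℤ) ⧸ H) : g • y ≠ y := by
  obtain ⟨γ, rfl⟩ := QuotientGroup.mk_surjective y
  intro h
  have h1 : ((g * γ : SL(2, ℤ)) : SL(2, ℤ) ⧸ H) = (γ : SL(2, ℤ) ⧸ H) := h
  rw [QuotientGroup.eq] at h1
  have h2 := H.inv_mem h1
  apply hfree γ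
  have e : ((g * γ)⁻¹ * γ)⁻¹ = γ⁻¹ * g * γ := by group
  rwa [e] at h2

/-- `3 · #orbits(S T) = [SL₂(ℤ) : H]` if `S T` has no fixed coset. -/
theorem br_three_mul_orbCount [H.FiniteIndex] (hneg : (-1 : SL(2, ℤ)) ∈ H)
    (hfree : ∀ γ : SL(2, ℤ), γ⁻¹ * (ModularGroup.S * ModularGroup.T) * γ ∉ H) :
    3 * orbCount H (ModularGroup.S * ModularGroup.T) = H.index := by
  classical
  haveI : Finite (SL(2, ℤ) ⧸ H) := Subgroup.finite_quotient_of_finiteIndex
  letI : Fintype (SL(2, ℤ) ⧸ H) := Fintype.ofFinite _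
  have h := three_mul_card_orbits (X := SL(2, ℤ) ⧸ H) (ModularGroup.S * ModularGroup.T)
    (smul_ST_ST_ST H hneg)
  haveI : IsEmpty {y : SL(2, ℤ) ⧸ H // (ModularGroup.S * ModularGroup.T) • y = y} :=
    ⟨fun y => br_smul_mk_ne H _ hfree y.1 y.2⟩
  have hz : Fintype.card {y : SL(2, ℤ) ⧸ H // (ModularGroup.S * ModularGroup.T) • y = y} = 0 :=
    Fintype.card_eq_zero
  rw [hz, mul_zero, add_zero, ← Nat.card_eq_fintype_card] at h
  exact h

/-- `2 · #orbits(S) = [SL₂(ℤ) : H]` if `S` has no fixed coset. -/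
theorem br_two_mul_orbCount [H.FiniteIndex] (hneg : (-1 : SL(2, ℤ)) ∈ H)
    (hfree : ∀ γ : SL(2, ℤ), γ⁻¹ * ModularGroup.S * γ ∉ H) :
    2 * orbCount H ModularGroup.S = H.index := by
  classical
  haveI : Finite (SL(2, ℤ) ⧸ H) := Subgroup.finite_quotient_of_finiteIndex
  letI : Fintype (SL(2, ℤ) ⧸ H) := Fintype.ofFinite _
  have h := two_mul_card_orbits (X := SL(2, ℤ) ⧸ H) ModularGroup.S (smul_S_S H hneg)
  haveI : IsEmpty {y : SL(2, ℤ) ⧸ H // ModularGroup.S • y = y} :=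
    ⟨fun y => br_smul_mk_ne H _ hfree y.1 y.2⟩
  have hz : Fintype.card {y : SL(2, ℤ) ⧸ H // ModularGroup.S • y = y} = 0 :=
    Fintype.card_eq_zero
  rw [hz, add_zero, ← Nat.card_eq_fintype_card] at h
  exact h

end Orbits

/-! ### traces -/

section Trace

theorem br_trace_conj (g γ : SL(2, ℤ)) :
    Matrix.trace ((γ⁻¹ * g * γ : SL(2, ℤ)) : Matrix (Fin 2) (Fin 2) ℤ) =
      Matrix.trace (g : Matrix (Fin 2) (Fin 2) ℤ) := by
  have h1 : ((γ⁻¹ * g * γ : SL(2, ℤ)) : Matrix (Fin 2) (Fin 2) ℤ) =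
      (γ⁻¹ : SL(2, ℤ)).1 * (g.1 * γ.1) := by
    rw [mul_assoc]
    rfl
  rw [h1, Matrix.trace_mul_comm, mul_assoc]
  have h2 : γ.1 * (γ⁻¹ : SL(2, ℤ)).1 = 1 := by
    have := congrArg Subtype.val (mul_inv_cancel γ)
    exact this
  rw [h2, mul_one]

theorem br_trace_S : Matrix.trace ((ModularGroup.S : SL(2, ℤ)) : Matrix (Fin 2) (Fin 2) ℤ) = 0 := by
  simp [ModularGroup.S, Matrix.trace_fin_two]

theorem br_trace_ST :
    Matrix.trace ((ModularGroup.S * ModularGroup.T : SL(2, ℤ)) : Matrix (Fin 2) (Fin 2) ℤ)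
      = 1 := by
  rw [Matrix.SpecialLinearGroup.coe_mul, Matrix.trace_fin_two]
  simp [ModularGroup.S, ModularGroup.T, Matrix.mul_apply, Fin.sum_univ_two]

/-- every element of `H` has trace `≡ ± 2` modulo `M`. -/
def BrTracePM (M : ℕ) (H : Subgroup SL(2, ℤ)) : Prop :=
  ∀ g ∈ H, (M : ℤ) ∣ Matrix.trace (g : Matrix (Fin 2) (Fin 2) ℤ) - 2 ∨
    (M : ℤ) ∣ Matrix.trace (g : Matrix (Fin 2) (Fin 2) ℤ) + 2

theorem br_free_S_of_trace {M : ℕ} (hM : 3 ≤ M) {H : Subgroup SL(2, ℤ)} (hH : BrTracePM M H)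
    (γ : SL(2, ℤ)) : γ⁻¹ * ModularGroup.S * γ ∉ H := by
  intro h
  have h3 : (3 : ℤ) ≤ M := by exact_mod_cast hM
  rcases hH _ h with h1 | h1 <;> rw [br_trace_conj, br_trace_S] at h1
  · have := Int.le_of_dvd (by norm_num) ((dvd_neg (a := (M : ℤ)) (b := 2)).mp (by simpa using h1))
    omega
  · have := Int.le_of_dvd (by norm_num) (show (M : ℤ) ∣ 2 by simpa using h1)
    omega

theorem br_free_ST_of_trace {M : ℕ} (hM : 4 ≤ M) {H : Subgroup SL(2, ℤ)} (hH : BrTracePM M H)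
    (γ : SL(2, ℤ)) : γ⁻¹ * (ModularGroup.S * ModularGroup.T) * γ ∉ H := by
  intro h
  have h4 : (4 : ℤ) ≤ M := by exact_mod_cast hM
  rcases hH _ h with h1 | h1 <;> rw [br_trace_conj, br_trace_ST] at h1
  · have := Int.le_of_dvd (by norm_num) ((dvd_neg (a := (M : ℤ)) (b := 1)).mp (by
      have e : (1 : ℤ) - 2 = -1 := by norm_num
      rwa [e] at h1))
    omega
  · have := Int.le_of_dvd (by norm_num) (show (M : ℤ) ∣ 3 by
      have e : (1 : ℤ) + 2 = 3 := by norm_num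
      rwa [e] at h1)
    omega

end Trace

/-! ### the elliptic fibres -/

variable {F : Type} [Field F] [Algebra Kbar F] {M : ℕ} [NeZero M]

/-- `-1` acts trivially. -/
theorem br_neg_one_mem_brStab (φ : F →ₐ[Kbar] LHb M) :
    (-1 : SL(2, ℤ)) ∈ brStab (Γ := SL(2, ℤ)) φ := by
  intro y
  refine Fermat.Agent.S48WGVal.mem_fixerLHbb_of_forall_smul M (-1) (fun τ => ?_) (φ y)
  rw [ModularGroup.SL_neg_smul, one_smul]

theorem br_finiteIndex_brStab (φ : F →ₐ[Kbar] LHb M) :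
    (brStab (Γ := SL(2, ℤ)) φ).FiniteIndex := by
  obtain ⟨Γ', hΓ', h⟩ := exists_finiteIndex_fixing_LHb M
  exact Subgroup.finiteIndex_of_le (H := Γ') (fun g hg y => h g hg (φ y))

/-- `[F : ℚ̄(x)] = [SL₂(ℤ) : Stab(φ F)]`. -/
theorem br_finrank_eq_index (φ : F →ₐ[Kbar] LHb M) (x : F) (hφx : φ x = jLHb M) :
    Module.finrank Kbar⟮x⟯ F = (brStab (Γ := SL(2, ℤ)) φ).index :=
  (card_fibre_of_hom φ x (jLHb M) hφx (br_transcendental_jLHb M)
    (exists_finiteIndex_fixing_LHb M) (smul_jLHb M) (mem_adjoin_jLHb_of_invariant M)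
    (brStab (Γ := SL(2, ℤ)) φ) (fun _ => Iff.rfl)).1

/-- the fibre of `x` over `0` is the set of orbits of `S T` on the cosets of the stabiliser. -/
theorem br_card_zero_eq_orbCount (hM : 2 ≤ M) (φ : F →ₐ[Kbar] LHb M) (x : F)
    (hφx : φ x = jLHb M) :
    Nat.card {v : Place Kbar F // 0 < v.ord x} =
      orbCount (brStab (Γ := SL(2, ℤ)) φ) (ModularGroup.S * ModularGroup.T) := by
  obtain ⟨w, s, g, hwK, hs, hw, hg, hper, -, h0, -⟩ :=
    Fermat.Agent.S48WGVal.exists_local_datum_LHb M hM 0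
  obtain ⟨rfl, rfl⟩ := h0 rfl
  have h := ((card_fibre_of_hom φ x (jLHb M) hφx (br_transcendental_jLHb M)
    (exists_finiteIndex_fixing_LHb M) (smul_jLHb M) (mem_adjoin_jLHb_of_invariant M)
    (brStab (Γ := SL(2, ℤ)) φ) (fun _ => Iff.rfl)).2.1 0 w 3
      (ModularGroup.S * ModularGroup.T) hwK hs hw hg hper).1
  simpa using h

/-- the fibre of `x` over `1728` is the set of orbits of `S` on the cosets of the stabiliser. -/
theorem br_card_1728_eq_orbCount (hM : 2 ≤ M) (φ : F →ₐ[Kbar] LHb M) (x : F)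
    (hφx : φ x = jLHb M) :
    Nat.card {v : Place Kbar F // 0 < v.ord (x - algebraMap Kbar F 1728)} =
      orbCount (brStab (Γ := SL(2, ℤ)) φ) ModularGroup.S := by
  obtain ⟨w, s, g, hwK, hs, hw, hg, hper, h1, -, -⟩ :=
    Fermat.Agent.S48WGVal.exists_local_datum_LHb M hM 1728
  obtain ⟨rfl, rfl⟩ := h1 rfl
  exact ((card_fibre_of_hom φ x (jLHb M) hφx (br_transcendental_jLHb M)
    (exists_finiteIndex_fixing_LHb M) (smul_jLHb M) (mem_adjoin_jLHb_of_invariant M)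
    (brStab (Γ := SL(2, ℤ)) φ) (fun _ => Iff.rfl)).2.1 1728 w 2
      ModularGroup.S hwK hs hw hg hper).1

/-- **(ELL, places form)** if no conjugate of `S T`, `S` fixes `φ F`, then
`3 · #fibre(0) = 2 · #fibre(1728) = [F : ℚ̄(x)]`. -/
theorem br_ell_of_free (hM : 2 ≤ M) (φ : F →ₐ[Kbar] LHb M) (x : F) (hφx : φ x = jLHb M)
    (h3 : ∀ γ : SL(2, ℤ),
      γ⁻¹ * (ModularGroup.S * ModularGroup.T) * γ ∉ brStab (Γ := SL(2, ℤ)) φ)
    (h2 : ∀ γ : SL(2, ℤ), γ⁻¹ * ModularGroup.S * γ ∉ brStab (Γ := SL(2, ℤ)) φ) :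
    3 * Nat.card {v : Place Kbar F // 0 < v.ord x} = Module.finrank Kbar⟮x⟯ F ∧
    2 * Nat.card {v : Place Kbar F // 0 < v.ord (x - algebraMap Kbar F 1728)} =
      Module.finrank Kbar⟮x⟯ F := by
  haveI := br_finiteIndex_brStab φ
  rw [br_card_zero_eq_orbCount hM φ x hφx, br_card_1728_eq_orbCount hM φ x hφx,
    br_finrank_eq_index φ x hφx]
  exact ⟨br_three_mul_orbCount _ (br_neg_one_mem_brStab φ) h3,
    br_two_mul_orbCount _ (br_neg_one_mem_brStab φ) h2⟩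

/-- **(ELL, places form)** if every element fixing `φ F` has trace `≡ ± 2` modulo `M ≥ 4`, then
`3 · #fibre(0) = 2 · #fibre(1728) = [F : ℚ̄(x)]`. -/
theorem br_ell_of_trace (hM : 4 ≤ M) (φ : F →ₐ[Kbar] LHb M) (x : F) (hφx : φ x = jLHb M)
    (htr : BrTracePM M (brStab (Γ := SL(2, ℤ)) φ)) :
    3 * Nat.card {v : Place Kbar F // 0 < v.ord x} = Module.finrank Kbar⟮x⟯ F ∧
    2 * Nat.card {v : Place Kbar F // 0 < v.ord (x - algebraMap Kbar F 1728)} =
      Module.finrank Kbar⟮x⟯ F :=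
  br_ell_of_free (by omega) φ x hφx (br_free_ST_of_trace hM htr)
    (br_free_S_of_trace (by omega) htr)

/-- **(ELL, `fibreCard` form)**. -/
theorem br_ell_fibreCard_of_free (hM : 2 ≤ M) (φ : F →ₐ[Kbar] LHb M) (x : F)
    (hφx : φ x = jLHb M)
    (h3 : ∀ γ : SL(2, ℤ),
      γ⁻¹ * (ModularGroup.S * ModularGroup.T) * γ ∉ brStab (Γ := SL(2, ℤ)) φ)
    (h2 : ∀ γ : SL(2, ℤ), γ⁻¹ * ModularGroup.S * γ ∉ brStab (Γ := SL(2, ℤ)) φ) :
    3 * Fermat.Agent.GoodRed.fibreCard Kbar x 0 = Module.finrank Kbar⟮x⟯ F ∧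
    2 * Fermat.Agent.GoodRed.fibreCard Kbar x 1728 = Module.finrank Kbar⟮x⟯ F := by
  haveI := br_finiteDimensional_of_emb φ x hφx
  haveI := br_isSeparable_of_emb φ x hφx
  have hx := br_transcendental_of_emb φ x hφx
  rw [Fermat.Agent.GoodRed.fibreCard_eq_card_zeros hx 0,
    Fermat.Agent.GoodRed.fibreCard_eq_card_zeros hx 1728]
  have h := br_ell_of_free hM φ x hφx h3 h2
  simpa using h

/-- **(ELL, `fibreCard` form)**, from the traces. -/
theorem br_ell_fibreCard_of_trace (hM : 4 ≤ M) (φ : F →ₐ[Kbar] LHb M) (x : F)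
    (hφx : φ x = jLHb M) (htr : BrTracePM M (brStab (Γ := SL(2, ℤ)) φ)) :
    3 * Fermat.Agent.GoodRed.fibreCard Kbar x 0 = Module.finrank Kbar⟮x⟯ F ∧
    2 * Fermat.Agent.GoodRed.fibreCard Kbar x 1728 = Module.finrank Kbar⟮x⟯ F :=
  br_ell_fibreCard_of_free (by omega) φ x hφx (br_free_ST_of_trace hM htr)
    (br_free_S_of_trace (by omega) htr)

end Fermat.Agent.S48WG
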