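/-
S48 wall (W), block G-RED, seat G-BRANCH, split ELL (helper33), part TRACE:
a subgroup `H` of `SL₂(ℤ)` fixing the Fricke function `F_{(1,0)}` consists of matrices
`≡ ± [1 0; * 1]` modulo `M`; in particular all its traces are `≡ ± 2` modulo `M`
(the hypothesis `BrTracePM M H` of `br_ell_of_trace`).

* `br_igF_injective`     : (characteristic `0`) `igF v = igF v' ⟹ v = ± v'`;
* `br_row_of_fix`        : `g • F_{(1,0)} = F_{(1,0)} ⟹ (g₁₁, g₀₁) ≡ ± (1, 0)` modulo `M`;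
* `br_tracePM_of_fix`    : `BrTracePM M H` if `H` fixes `F_{(1,0)}`;
* `br_ell_of_fix`, `br_ell_fibreCard_of_fix` : ELL for `φ : F →ₐ LHb M`, `φ x = j`, as soon as
  every `g` fixing `φ F` fixes the function `F_{(1,0)}`, `M ≥ 4`.
-/
import Mathlib
import Fermat.Agent.S48.W.G.Red.Branch.Ell
import Fermat.Agent.S48.W.G.Red.Igusa.FExp
import Fermat.Agent.S48.W.G.Red.Igusa.DistA1
import Fermat.Agent.S48.W.G.Kron.FrickeAmb

set_option autoImplicit false
set_option linter.style.haveILetI false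

noncomputable section

namespace Fermat.Agent.S48WG

open UpperHalfPlane AlgebraicCurve IntermediateField Fermat.Agent.S24 Fermat.Agent.S48WKron
open Fermat.Agent.S48W Fermat.Agent.S48WA1
open scoped MatrixGroups Real

/-! ### distinctness in characteristic `0` -/

theorem br_top_valuation_eq_one {K : Type*} [Field K] {x : K} (hx : x ≠ 0) :
    (⊤ : ValuationSubring K).valuation x = 1 := by
  have h1 : (⊤ : ValuationSubring K).valuation x ≤ 1 :=
    ((⊤ : ValuationSubring K).valuation_le_one_iff x).mpr (ValuationSubring.mem_top x)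
  have h2 : (⊤ : ValuationSubring K).valuation x⁻¹ ≤ 1 :=
    ((⊤ : ValuationSubring K).valuation_le_one_iff x⁻¹).mpr (ValuationSubring.mem_top _)
  rw [map_inv₀] at h2
  have h0 : (⊤ : ValuationSubring K).valuation x ≠ 0 := by
    rw [Valuation.ne_zero_iff]
    exact hx
  have h3 : 1 ≤ (⊤ : ValuationSubring K).valuation x := by
    have := (inv_le_one₀ (zero_lt_iff.mpr h0)).mp h2
    exact this
  exact le_antisymm h1 h3

/-- `igF v = igF v' ⟹ v = ± v'` over a field of characteristic `0`. -/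
theorem br_igF_injective {K : Type*} [Field K] [Algebra ℚ K] [CharZero K] {M : ℕ} [NeZero M]
    {ζ : K} (hζ : IsPrimitiveRoot ζ M) {r s r' s' : ZMod M} (hv : ¬ (r = 0 ∧ s = 0))
    (hv' : ¬ (r' = 0 ∧ s' = 0)) (h : igF M ζ r s = igF M ζ r' s') :
    (r = r' ∧ s = s') ∨ (r = -r' ∧ s = -s') := by
  refine igF_distinct (⊤ : ValuationSubring K) hζ
    (br_top_valuation_eq_one (Nat.cast_ne_zero.mpr (NeZero.ne M)))
    (br_top_valuation_eq_one (by norm_num)) hv hv' fun n => ?_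
  rw [h, sub_self, HahnSeries.coeff_zero, map_zero]
  exact zero_lt_one

theorem br_isPrimitiveRoot (M : ℕ) [NeZero M] (ζ : Kbar)
    (hζ : iota ζ = Complex.exp (2 * π * Complex.I / M)) : IsPrimitiveRoot ζ M := by
  have h := Complex.isPrimitiveRoot_exp M (NeZero.ne M)
  rw [← hζ] at h
  exact h.of_map_of_injective iota_injective

/-! ### matrices fixing `F_{(1,0)}` -/

theorem br_isNZ_one_zero {M : ℕ} (hM : 2 ≤ M) : IsNZ M 1 0 := by
  intro h
  have := Int.le_of_dvd one_pos h.1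
  omega

theorem br_actL_inv (g : SL(2, ℤ)) : actL g⁻¹ 1 0 = g 1 1 := by
  unfold actL
  rw [Matrix.SpecialLinearGroup.SL2_inv_expl]
  simp

theorem br_actR_inv (g : SL(2, ℤ)) : actR g⁻¹ 1 0 = -g 0 1 := by
  unfold actR
  rw [Matrix.SpecialLinearGroup.SL2_inv_expl]
  simp

/-- `g • F_{(1,0)} = F_{(1,0)} ⟹ (g₁₁, g₀₁) ≡ ± (1, 0)` modulo `M`. -/
theorem br_row_of_fix (M : ℕ) [NeZero M] (hM : 2 ≤ M) (g : SL(2, ℤ))
    (hg : g • frickeFun M 1 0 = frickeFun M 1 0) :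
    (((g 1 1 : ℤ) : ZMod M) = 1 ∨ ((g 1 1 : ℤ) : ZMod M) = -1) ∧ ((g 0 1 : ℤ) : ZMod M) = 0 := by
  obtain ⟨ζ, hζ⟩ := HasExp.exists_iota_eq_exp M
  have h1 := frickeSmul M 1 0 g
  rw [hg, br_actL_inv, br_actR_inv] at h1
  have hnz := br_isNZ_one_zero hM
  have hnz' : IsNZ M (g 1 1) (-g 0 1) := by
    have := isNZ_act hnz g⁻¹
    rwa [br_actL_inv, br_actR_inv] at this
  have e1 := igFExp M ζ hζ 1 0 hnz
  have e2 := igFExp M ζ hζ (g 1 1) (-g 0 1) hnz'
  rw [← h1] at e2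
  have e := e1.unique e2
  have hv : ¬ ((((1 : ℤ) : ℤ) : ZMod M) = 0 ∧ (((0 : ℤ) : ℤ) : ZMod M) = 0) := by
    rw [ig_isNZ_iff] at hnz
    exact hnz
  have hv' : ¬ ((((g 1 1 : ℤ) : ℤ) : ZMod M) = 0 ∧ (((-g 0 1 : ℤ) : ℤ) : ZMod M) = 0) := by
    rw [ig_isNZ_iff] at hnz'
    exact hnz'
  rcases br_igF_injective (br_isPrimitiveRoot M ζ hζ) hv hv' e with ⟨ha, hb⟩ | ⟨ha, hb⟩
  · refine ⟨Or.inl ?_, ?_⟩
    · rw [← ha]
      simp
    · have : (((-g 0 1 : ℤ) : ℤ) : ZMod M) = 0 := by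
        rw [← hb]
        simp
      simpa using this
  · refine ⟨Or.inr ?_, ?_⟩
    · have : -(((g 1 1 : ℤ) : ℤ) : ZMod M) = 1 := by
        rw [← ha]
        simp
      rw [← this, neg_neg]
    · have : -(((-g 0 1 : ℤ) : ℤ) : ZMod M) = 0 := by
        rw [← hb]
        simp
      simpa using this

/-- **the traces of a subgroup fixing `F_{(1,0)}` are `≡ ± 2` modulo `M`.** -/
theorem br_tracePM_of_fix (M : ℕ) [NeZero M] (hM : 2 ≤ M) (H : Subgroup SL(2, ℤ))
    (hH : ∀ g ∈ H, g • frickeFun M 1 0 = frickeFun M 1 0) : BrTracePM M H := by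
  intro g hg
  obtain ⟨h11, h01⟩ := br_row_of_fix M hM g (hH g hg)
  have hdet : g 0 0 * g 1 1 - g 0 1 * g 1 0 = 1 := by
    have := g.det_coe
    rw [Matrix.det_fin_two] at this
    exact this
  have hdetM : ((g 0 0 : ℤ) : ZMod M) * ((g 1 1 : ℤ) : ZMod M) = 1 := by
    have := congrArg (fun t : ℤ => (t : ZMod M)) hdet
    simp only [Int.cast_sub, Int.cast_mul, Int.cast_one, h01, zero_mul, sub_zero] at this
    exact this
  rw [Matrix.trace_fin_two]
  rcases h11 with h | h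
  · left
    rw [h, mul_one] at hdetM
    rw [← ZMod.intCast_zmod_eq_zero_iff_dvd]
    push_cast
    rw [hdetM, h]
    ring
  · right
    rw [h, mul_neg, mul_one, neg_eq_iff_eq_neg] at hdetM
    rw [← ZMod.intCast_zmod_eq_zero_iff_dvd]
    push_cast
    rw [hdetM, h]
    ring

/-! ### the elliptic fibres -/

variable {F : Type} [Field F] [Algebra Kbar F] {M : ℕ} [NeZero M]

/-- **(ELL, places form)** for `φ : F →ₐ LHb M`, `φ x = j`: if every element of `SL₂(ℤ)` fixing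
`φ F` fixes the Fricke function `F_{(1,0)}` and `M ≥ 4`, then
`3 · #fibre(0) = 2 · #fibre(1728) = [F : ℚ̄(x)]`. -/
theorem br_ell_of_fix (hM : 4 ≤ M) (φ : F →ₐ[Kbar] LHb M) (x : F) (hφx : φ x = jLHb M)
    (hfix : ∀ g ∈ brStab (Γ := SL(2, ℤ)) φ, g • frickeFun M 1 0 = frickeFun M 1 0) :
    3 * Nat.card {v : Place Kbar F // 0 < v.ord x} = Module.finrank Kbar⟮x⟯ F ∧
    2 * Nat.card {v : Place Kbar F // 0 < v.ord (x - algebraMap Kbar F 1728)} =
      Module.finrank Kbar⟮x⟯ F :=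
  br_ell_of_trace hM φ x hφx (br_tracePM_of_fix M (by omega) _ hfix)

/-- **(ELL, `fibreCard` form)**. -/
theorem br_ell_fibreCard_of_fix (hM : 4 ≤ M) (φ : F →ₐ[Kbar] LHb M) (x : F)
    (hφx : φ x = jLHb M)
    (hfix : ∀ g ∈ brStab (Γ := SL(2, ℤ)) φ, g • frickeFun M 1 0 = frickeFun M 1 0) :
    3 * Fermat.Agent.GoodRed.fibreCard Kbar x 0 = Module.finrank Kbar⟮x⟯ F ∧
    2 * Fermat.Agent.GoodRed.fibreCard Kbar x 1728 = Module.finrank Kbar⟮x⟯ F :=
  br_ell_fibreCard_of_trace hM φ x hφx (br_tracePM_of_fix M (by omega) _ hfix)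

/-- the hypothesis `hfix` holds as soon as `F_{(1,0)}` (as an element of `LHb M`) is in the
image of `φ`. -/
theorem br_fix_of_mem_range (φ : F →ₐ[Kbar] LHb M) (hAH : IsAHb M (frickeFun M 1 0))
    (y : F) (hy : φ y = LHb.ofFun (frickeFun M 1 0) hAH) :
    ∀ g ∈ brStab (Γ := SL(2, ℤ)) φ, g • frickeFun M 1 0 = frickeFun M 1 0 := by
  intro g hg
  have h1 : g • φ y = φ y := hg y
  rw [hy, LHb.smul_ofFun] at h1
  exact LHb.ofFun_injective _ _ h1

end Fermat.Agent.S48WG
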