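/-
S48 wall (W), block G-RED, seat G-BRANCH (helper7), part EMB-A: the embedding of `ℚ̄ F₁(M)` in
helper24's ambient field `LHb M` in the CONVENTION OF HUB A1 (the formal `q` is `u = e(τ/M)`):

  `brEmb M : ↥(FOneBar M) →ₐ[ℚ̄] LHb M`,   `expLHb M (brEmb M y) = y`.

Generators: `j(q^d)` (`d d' = M`) is the expansion of `τ ↦ j(τ/d') = S • j_{d'}`, and `fricke M a`
is the expansion of the Fricke function `F_{(a,0)}` of hub A1 (`igFExp`, `igF_zero_right`).
Consequence: `brEmb M (j(q^M)) = j`, and `BranchOneStatement` (G-BRANCH).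
-/
import Mathlib
import Fermat.Agent.S48.W.G.Kron.EmbAbs
import Fermat.Agent.S48.W.G.Kron.ScaleExp
import Fermat.Agent.S48.W.G.Kron.FrickeAmb
import Fermat.Agent.S48.W.G.Red.Igusa.FExp
import Fermat.Agent.S48.W.G.Red.Igusa.DatDefs
import Fermat.Agent.S48.W.G.Red.Branch.Count

set_option autoImplicit false
set_option linter.style.haveILetI false
set_option synthInstance.maxHeartbeats 400000

noncomputable section

namespace Fermat.Agent.S48WG

open UpperHalfPlane ModularCurve AlgebraicCurve IntermediateField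
open Fermat.Agent.S24 Fermat.Agent.S24.GensExp Fermat.Agent.S48W Fermat.Agent.S48WA1
  Fermat.Agent.S48WKron Fermat.Agent.S24Inv
open scoped MatrixGroups

/-! ### the expansion of `f(τ/d')` -/

/-- `u₁(τ/d') = u_{d d'}(τ)^d`. -/
theorem br_uParam_one_unscale (d d' : ℕ) [NeZero d] [NeZero d'] (τ : ℍ) :
    uParam 1 (Periods.unscale d' τ) = uParam (d * d') τ ^ d := by
  have hd : (d : ℂ) ≠ 0 := Nat.cast_ne_zero.mpr (NeZero.ne d)
  have hd' : (d' : ℂ) ≠ 0 := Nat.cast_ne_zero.mpr (NeZero.ne d')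
  simp only [uParam, Function.Periodic.qParam, Periods.coe_unscale]
  rw [← Complex.exp_nat_mul]
  congr 1
  push_cast
  field_simp

/-- `HasExp 1 f b ⟹ HasExp (d d') (f ∘ (· / d')) (b(u^d))`. -/
theorem br_hasExp_unscale_of_one {f : Fun} {b : LaurentSeries Kbar} (h : HasExp 1 f b)
    (d d' : ℕ) [NeZero d] [NeZero d'] :
    HasExp (d * d') (fun τ => f (Periods.unscale d' τ)) (qExpand Kbar d b) := by
  obtain ⟨k, P, rfl, hP⟩ := h
  have hd : 0 < d := Nat.pos_of_ne_zero (NeZero.ne d)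
  set g : Fun := fun τ => f τ * uParam 1 τ ^ k / uParam 1 τ with hg
  have hgP : HasPExp 1 (fun τ => g τ * uParam 1 τ) P := by
    have e1 : (fun τ => g τ * uParam 1 τ) = fun τ => f τ * uParam 1 τ ^ k := by
      funext τ
      rw [hg]
      exact div_mul_cancel₀ _ (uParam_ne_zero 1 τ)
    rw [e1]
    exact hP
  have hφ : ∀ τ : ℍ, uParam 1 (Periods.unscale d' τ) = iota 1 * uParam (d * d') τ ^ d := by
    intro τ
    rw [br_uParam_one_unscale d d' τ, map_one, one_mul]
  have h1 := hasPExp_subst hgP (Periods.unscale d') 1 iota_one_norm d hd hφ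
  refine ⟨d * k, twist 1 d P, ?_, ?_⟩
  · rw [map_mul, qExpand_single, qExpand_ofPowerSeries]
    congr 2
    push_cast
    ring_nf
  · have e2 : (fun τ => g (Periods.unscale d' τ) * uParam (d * d') τ ^ d)
        = fun τ => f (Periods.unscale d' τ) * uParam (d * d') τ ^ (d * k) := by
      funext τ
      have hu := br_uParam_one_unscale d d' τ
      have hne : uParam (d * d') τ ^ d ≠ 0 := pow_ne_zero _ (uParam_ne_zero (d * d') τ)
      rw [hg]
      simp only
      rw [hu, div_mul_cancel₀ _ hne, ← pow_mul]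
    rw [e2] at h1
    exact h1

/-! ### the generators `j(q^d)` -/

theorem br_hasExp_one_jFun : HasExp 1 jFun (jqModC Kbar) := by
  have h := hasExp_jFun 1
  rwa [qExpand_one_apply] at h

/-- `τ ↦ j(τ/d')` is the translate `S • j_{d'}`. -/
theorem br_S_smul_jd (d' : ℕ) [NeZero d'] :
    (ModularGroup.S • (jd d' : Fun)) = fun τ => jFun (Periods.unscale d' τ) := by
  funext τ
  rw [Fun.sl_smul_apply]
  exact Periods.jd_S_inv_smul d' τ

/-- `τ ↦ j(τ/d')` is in the ambient ring of level `M`, `d' ∣ M`. -/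
theorem br_isAHb_jUnscale (M d' : ℕ) [NeZero M] [NeZero d'] (hd' : d' ∣ M) :
    IsAHb M (fun τ => jFun (Periods.unscale d' τ)) := by
  rw [← br_S_smul_jd d']
  exact IsAHb.sl_smul (AL_le_AHb M (EmbFHom.jdAL M d' hd').2) ModularGroup.S

/-- the expansion of `τ ↦ j(τ/d')` in `u = e(τ/M)`, `M = d d'`, is `j(u^d)`. -/
theorem br_hasExp_jUnscale (d d' : ℕ) [NeZero d] [NeZero d'] :
    HasExp (d * d') (fun τ => jFun (Periods.unscale d' τ)) (qExpand Kbar d (jqModC Kbar)) :=
  br_hasExp_unscale_of_one br_hasExp_one_jFun d d'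

theorem br_coeffEmb_jqd (d : ℕ) [NeZero d] :
    coeffEmb Kbar (qExpand ℚ d jq) = qExpand Kbar d (jqModC Kbar) := by
  rw [coeffEmb_qExpand_w, ← jqModC_rat]
  exact congrArg _ (map_jqModC (algebraMap ℚ Kbar))

/-! ### the embedding -/

theorem br_not_dvd_val {M : ℕ} [NeZero M] {a : ZMod M} (ha : a ≠ 0) :
    ¬ (M : ℤ) ∣ ((a.val : ℕ) : ℤ) := by
  intro h
  apply ha
  have h1 := (ZMod.intCast_zmod_eq_zero_iff_dvd ((a.val : ℕ) : ℤ) M).mpr h
  rwa [Int.cast_natCast, ZMod.natCast_zmod_val] at h1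

theorem br_cast_val {M : ℕ} [NeZero M] (a : ZMod M) :
    ((((a.val : ℕ) : ℤ)) : ZMod M) = a := by
  rw [Int.cast_natCast, ZMod.natCast_zmod_val]

/-- the generators of `F₁(M)` are expansions (in `u`) of elements of the ambient field. -/
theorem br_genInRange (M : ℕ) [NeZero M] :
    GenInRange (expLHb M) (AlgHom.id Kbar (LaurentSeries Kbar)) (genOne M) := by
  rintro g (⟨d, hdne, hd, rfl⟩ | ⟨a, ha, rfl⟩)
  · -- `j(q^d)`
    obtain ⟨d', rfl⟩ := hd
    haveI : NeZero d' := ⟨fun h => by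
      apply NeZero.ne (d * d')
      rw [h, mul_zero]⟩
    have h1 := expLHb_ofFun (fun τ => jFun (Periods.unscale d' τ))
      (br_isAHb_jUnscale (d * d') d' (dvd_mul_left d' d)) (br_hasExp_jUnscale d d')
    rw [AlgHom.id_apply, br_coeffEmb_jqd, ← h1]
    exact AlgHom.mem_fieldRange.mpr ⟨_, rfl⟩
  · -- `fricke M a`
    obtain ⟨ζ, hζ⟩ := HasExp.exists_iota_eq_exp M
    have hnz : IsNZ M ((a.val : ℕ) : ℤ) 0 := fun h => br_not_dvd_val ha h.1
    have h1 := igFExp M ζ hζ ((a.val : ℕ) : ℤ) 0 hnz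
    rw [br_cast_val, Int.cast_zero, igF_zero_right ha] at h1
    have h2 := expLHb_ofFun _ (isAHb_frickeFun M _ _ hnz) h1
    rw [AlgHom.id_apply, ← h2]
    exact AlgHom.mem_fieldRange.mpr ⟨_, rfl⟩

/-- **the embedding of `ℚ̄ F₁(M)` in the ambient field `LHb M`** (convention of hub A1). -/
def brEmb (M : ℕ) [NeZero M] : ↥(FOneBar M) →ₐ[Kbar] LHb M :=
  embAbs (br_genInRange M)

/-- `expLHb M (brEmb M y) = y`. -/
theorem expLHb_brEmb (M : ℕ) [NeZero M] (y : ↥(FOneBar M)) :
    expLHb M (brEmb M y) = (y : LaurentSeries Kbar) :=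
  e_embAbs (br_genInRange M) y

/-- the base function `j(q^M)` is mapped to `j`. -/
theorem brEmb_base (M : ℕ) [NeZero M] (x : ↥(FOneBar M))
    (hx : (x : LaurentSeries Kbar) = qExpand Kbar M (jqModC Kbar)) : brEmb M x = jLHb M := by
  apply expLHb_injective M
  rw [expLHb_brEmb, hx, br_expLHb_jLHb]

/-- **(G-BRANCH)** the fibres of `x = j(q^M)` on `ℚ̄ F₁(M)` over `c ≠ 0, 1728` are unramified. -/
theorem branchOne : BranchOneStatement := by
  intro M _ _ x hx c hc0 hc1
  exact br_fibreCard_of_emb (brEmb M) x (brEmb_base M x hx) c hc0 hc1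

end Fermat.Agent.S48WG
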