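/-
S48 wall (W), block G-RED, seat G-BRANCH, split ELL (helper33), FINAL:
the elliptic fibres of `x = j(q^M)` on `ℚ̄ F₁(M)`, `M ≥ 4`:

  `3 · fibreCard 0 = [ℚ̄ F₁(M) : ℚ̄(x)]`,   `2 · fibreCard 1728 = [ℚ̄ F₁(M) : ℚ̄(x)]`

(`X₁(M)` has no elliptic points).  From helper7's embedding `brEmb M : ℚ̄ F₁(M) → LHb M`
(`Branch/EmbA.lean`), `Branch/Ell.lean` and `Branch/EllTrace.lean`.
These are the hypotheses `h0`, `hu` (`u = 1728`) of `S48WG23.twelve_genusFF_of_fibres`.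
-/
import Mathlib
import Fermat.Agent.S48.W.G.Red.Branch.EllTrace
import Fermat.Agent.S48.W.G.Red.Branch.EmbA

set_option autoImplicit false
set_option linter.style.haveILetI false
set_option synthInstance.maxHeartbeats 400000

noncomputable section

namespace Fermat.Agent.S48WG

open UpperHalfPlane ModularCurve AlgebraicCurve IntermediateField
open Fermat.Agent.S24 Fermat.Agent.S48W Fermat.Agent.S48WA1 Fermat.Agent.S48WKron
open scoped MatrixGroups Real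

/-- (ELL) the fibres of `x = j(q^M)` over `0` and `1728` on `ℚ̄ F₁(M)`, `M ≥ 4`. -/
def EllOneStatement : Prop :=
  ∀ (M : ℕ) [NeZero M], 4 ≤ M →
    ∀ x : ↥(FOneBar M), (x : LaurentSeries Kbar) = qExpand Kbar M (jqModC Kbar) →
      3 * Fermat.Agent.GoodRed.fibreCard Kbar x 0 = Module.finrank ↥(Kbar⟮x⟯) ↥(FOneBar M) ∧
      2 * Fermat.Agent.GoodRed.fibreCard Kbar x 1728 = Module.finrank ↥(Kbar⟮x⟯) ↥(FOneBar M)

theorem ell_one_ne_zero {M : ℕ} (hM : 2 ≤ M) : ((1 : ℤ) : ZMod M) ≠ 0 := by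
  intro h
  rw [ZMod.intCast_zmod_eq_zero_iff_dvd] at h
  have := Int.le_of_dvd one_pos h
  omega

/-- the Fricke function `F_{(1,0)}` is the image of `fricke M 1` under `brEmb M`. -/
theorem brEmb_fricke_one (M : ℕ) [NeZero M] (hM : 2 ≤ M) :
    ∃ y : ↥(FOneBar M), brEmb M y =
      LHb.ofFun (frickeFun M 1 0) (isAHb_frickeFun M 1 0 (br_isNZ_one_zero hM)) := by
  obtain ⟨ζ, hζ⟩ := HasExp.exists_iota_eq_exp M
  have h1 : ((1 : ℤ) : ZMod M) ≠ 0 := ell_one_ne_zero hM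
  refine ⟨⟨coeffEmb Kbar (fricke M ((1 : ℤ) : ZMod M)),
    coeffEmb_mem_laurentBaseChange Kbar (fricke_mem M h1)⟩, ?_⟩
  apply expLHb_injective M
  rw [expLHb_brEmb]
  have e := igFExp M ζ hζ 1 0 (br_isNZ_one_zero hM)
  rw [expLHb_ofFun _ _ e]
  have e0 : (((0 : ℤ) : ℤ) : ZMod M) = 0 := by simp
  rw [e0, igF_zero_right h1]

/-- **(ELL)** for `X₁(M)`, `M ≥ 4`. -/
theorem ellOne : EllOneStatement := by
  intro M _ hM x hx
  have hM2 : 2 ≤ M := by omega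
  obtain ⟨y, hy⟩ := brEmb_fricke_one M hM2
  exact br_ell_fibreCard_of_fix hM (brEmb M) x (brEmb_base M x hx)
    (br_fix_of_mem_range (brEmb M) (isAHb_frickeFun M 1 0 (br_isNZ_one_zero hM2)) y hy)

end Fermat.Agent.S48WG
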