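/-
S48 wall (W), block G-RED, seat G-BRANCH (helper7), part BC: GENERIC base change of fibre counts.

`K ⊆ Ω` algebraically closed of characteristic `0`, `F₀ ⊆ ℚ((q))`, `F = K F₀`, `FΩ = Ω F₀`,
`θ = descTheta K Ω F₀ : F → FΩ` the coefficientwise embedding.

* `brLaurentBC` : the `S27.BCSetup K F Ω FΩ` of this constant field extension
  (`φ = θ`, action of `Aut(Ω/K)` through `arithmeticGalois`);
* `br_card_zeros_of_bc` : if the fibre of `θ x` over (the image of) `c : K` has `[FΩ : Ω(θ x)]`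
  places, then the fibre of `x` over `c` has `[F : K(x)]` places;
* `br_fibreCard_of_bc` : the same in the `GoodRed.fibreCard` form, i.e. in the shape of the
  hypothesis `hunram` of `genusFF_eq_of_branch` (G-GENUS).
-/
import Mathlib
import Fermat.Agent.S27.Red.BranchBC
import Fermat.Agent.Lib.ConstExt.Inst
import Fermat.Agent.F3.I2.Descent.Fixed
import Fermat.Agent.Lib.GoodRed.Places

set_option autoImplicit false
set_option linter.style.haveILetI false

noncomputable section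

namespace Fermat.Agent.S48WG

open ModularCurve AlgebraicCurve IntermediateField Fermat.Agent.RR Fermat.Agent.F3I2

section Setup

variable (K Ω : Type) [Field K] [Field Ω] [Algebra ℚ K] [Algebra ℚ Ω] [Algebra K Ω]
  (F₀ : IntermediateField ℚ (LaurentSeries ℚ))

/-- `Aut(Ω/K) → Aut(Ω/ℚ)`. -/
def brRat : (Ω ≃ₐ[K] Ω) →* (Ω ≃ₐ[ℚ] Ω) where
  toFun σ := descRatAlgEquiv Ω σ.toRingEquiv
  map_one' := by
    apply AlgEquiv.ext
    intro a
    rfl
  map_mul' σ τ := by
    apply AlgEquiv.ext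
    intro a
    rfl

theorem brRat_apply (σ : Ω ≃ₐ[K] Ω) (a : Ω) : brRat K Ω σ a = σ a := rfl

theorem brRat_mem (σ : Ω ≃ₐ[K] Ω) : brRat K Ω σ ∈ descGal K Ω := fun a => by
  rw [brRat_apply]
  exact σ.commutes a

/-- the constant field extension `K F₀ ⊆ Ω F₀` as a `BCSetup`. -/
def brLaurentBC (hK : IsRRField K ↥(laurentBaseChange K F₀))
    (hΩ : IsRRField Ω ↥(laurentBaseChange Ω F₀)) :
    Fermat.Agent.S27.BCSetup K ↥(laurentBaseChange K F₀) Ω ↥(laurentBaseChange Ω F₀) where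
  φ := descTheta K Ω F₀
  isConstExt := Fermat.Agent.ConstExt.isConstExt_descTheta K Ω F₀
  hF := hK
  hΩ := hΩ
  act := (arithmeticGalois F₀).comp (brRat K Ω)
  baseAut_act := fun _ _ => rfl
  act_φ := fun σ f => descGal_smul_theta F₀ (brRat_mem K Ω σ) f

@[simp] theorem brLaurentBC_φ (hK : IsRRField K ↥(laurentBaseChange K F₀))
    (hΩ : IsRRField Ω ↥(laurentBaseChange Ω F₀)) :
    (brLaurentBC K Ω F₀ hK hΩ).φ = descTheta K Ω F₀ := rfl

end Setup

section Count

variable {K Ω : Type} [Field K] [Field Ω] [Algebra ℚ K] [Algebra ℚ Ω] [Algebra K Ω]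
  [IsAlgClosed K] [IsAlgClosed Ω]
  {F₀ : IntermediateField ℚ (LaurentSeries ℚ)}

/-- base change of an unramified fibre, places form. -/
theorem br_card_zeros_of_bc (hK : IsRRField K ↥(laurentBaseChange K F₀))
    (hΩ : IsRRField Ω ↥(laurentBaseChange Ω F₀))
    {x : ↥(laurentBaseChange K F₀)} (hx : Transcendental K x)
    [FiniteDimensional ↥K⟮x⟯ ↥(laurentBaseChange K F₀)] (c : K)
    (hC : Nat.card {w : Place Ω ↥(laurentBaseChange Ω F₀) //
        0 < w.ord (descTheta K Ω F₀ x -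
          algebraMap Ω ↥(laurentBaseChange Ω F₀) (algebraMap K Ω c))} =
      Module.finrank ↥Ω⟮descTheta K Ω F₀ x⟯ ↥(laurentBaseChange Ω F₀)) :
    Nat.card {v : Place K ↥(laurentBaseChange K F₀) //
        0 < v.ord (x - algebraMap K ↥(laurentBaseChange K F₀) c)} =
      Module.finrank ↥K⟮x⟯ ↥(laurentBaseChange K F₀) := by
  have h1 := (brLaurentBC K Ω F₀ hK hΩ).card_fibre_algebraMap x c
  have h2 := (brLaurentBC K Ω F₀ hK hΩ).finrank_bc hx
  rw [brLaurentBC_φ] at h1 h2
  rw [← h1, hC, h2]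

/-- base change of an unramified fibre, `fibreCard` form (the shape of `hunram` in G-GENUS). -/
theorem br_fibreCard_of_bc (hK : IsRRField K ↥(laurentBaseChange K F₀))
    (hΩ : IsRRField Ω ↥(laurentBaseChange Ω F₀))
    {x : ↥(laurentBaseChange K F₀)} (hx : Transcendental K x)
    [FiniteDimensional ↥K⟮x⟯ ↥(laurentBaseChange K F₀)]
    [Algebra.IsSeparable ↥K⟮x⟯ ↥(laurentBaseChange K F₀)] (c : K)
    (hC : Nat.card {w : Place Ω ↥(laurentBaseChange Ω F₀) //
        0 < w.ord (descTheta K Ω F₀ x -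
          algebraMap Ω ↥(laurentBaseChange Ω F₀) (algebraMap K Ω c))} =
      Module.finrank ↥Ω⟮descTheta K Ω F₀ x⟯ ↥(laurentBaseChange Ω F₀)) :
    Fermat.Agent.GoodRed.fibreCard K x c =
      Module.finrank ↥K⟮x⟯ ↥(laurentBaseChange K F₀) := by
  rw [Fermat.Agent.GoodRed.fibreCard_eq_card_zeros hx c]
  exact br_card_zeros_of_bc hK hΩ hx c hC

end Count

end Fermat.Agent.S48WG
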