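/-
S48 wall (W), block G-RED, seat ELL-B (helper24), part GEN: a fibre all of whose points have the
same ramification index `s` (GENERIC).

`φ : F →ₐ[K] L` an embedding into a field `L` with an action of a group `Γ`, `L^Γ = K(jL)`,
`φ j = jL`.  If `L` has a valuation `w`, trivial on the constants, with
`w (jL - c) = exp (-s)`, invariant under `g`, where `g ^ k` acts trivially on `L` iff `s ∣ k`,
and if NO conjugate of `g ^ k`, `s ∤ k`, fixes `φ F`, then the fibre of `j` over `c` in `F` has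
exactly `[F : K(j)] / s` places:  `s * #{v | v(j - c) > 0} = [F : K(j)]`.
-/
import Mathlib
import Fermat.Agent.S48.W.G.Red.Branch.Hom

set_option autoImplicit false
set_option linter.style.haveILetI false

noncomputable section

namespace Fermat.Agent.S48WG

open AlgebraicCurve IntermediateField Fermat.Agent.GoodRedBranch Fermat.Agent.S24

/-! ### group theory: a cyclic group acting with all orbits of size `s` -/

section orbits

variable {Γ : Type*} [Group Γ]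

/-- the translates `g ^ k • x`, `k < s`, of a coset. -/
def ellbOrbMap (H : Subgroup Γ) (g : Γ) (s : ℕ) (x : Γ ⧸ H) (k : Fin s) :
    MulAction.orbit (Subgroup.zpowers g) x :=
  ⟨(⟨g ^ (k : ℕ), Subgroup.npow_mem_zpowers g k⟩ : Subgroup.zpowers g) • x,
    MulAction.mem_orbit _ _⟩

theorem ellb_zpow_smul_eq_iff (H : Subgroup Γ) (g : Γ) (s : ℕ)
    (h : ∀ (γ : Γ) (k : ℤ), γ⁻¹ * g ^ k * γ ∈ H ↔ (s : ℤ) ∣ k) (γ : Γ) (a b : ℤ) :
    ((g ^ a * γ : Γ) : Γ ⧸ H) = ((g ^ b * γ : Γ) : Γ ⧸ H) ↔ (s : ℤ) ∣ b - a := by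
  rw [QuotientGroup.eq, ← h γ (b - a)]
  have e : (g ^ a * γ)⁻¹ * (g ^ b * γ) = γ⁻¹ * g ^ (b - a) * γ := by
    rw [zpow_sub]
    group
  rw [e]

theorem ellbOrbMap_bijective (H : Subgroup Γ) (g : Γ) (s : ℕ) (hs : 0 < s)
    (h : ∀ (γ : Γ) (k : ℤ), γ⁻¹ * g ^ k * γ ∈ H ↔ (s : ℤ) ∣ k) (x : Γ ⧸ H) :
    Function.Bijective (ellbOrbMap H g s x) := by
  induction x using QuotientGroup.induction_on with
  | H γ =>
  constructor
  · intro a b hab
    have h1 : ((g ^ ((a : ℕ) : ℤ) * γ : Γ) : Γ ⧸ H) = ((g ^ ((b : ℕ) : ℤ) * γ : Γ) : Γ ⧸ H) := by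
      have := congrArg Subtype.val hab
      rw [zpow_natCast, zpow_natCast]
      exact this
    rw [ellb_zpow_smul_eq_iff H g s h] at h1
    have ha := a.2
    have hb := b.2
    apply Fin.ext
    obtain ⟨c, hc⟩ := h1
    have hlt : ((b : ℕ) : ℤ) - (a : ℕ) < s := by omega
    have hgt : -(s : ℤ) < ((b : ℕ) : ℤ) - (a : ℕ) := by omega
    have hc0 : c = 0 := by
      rw [hc] at hlt hgt
      have hs' : (0 : ℤ) < s := by exact_mod_cast hs
      have h1 : c < 1 := by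
        by_contra hcon
        have : (s : ℤ) * 1 ≤ s * c := mul_le_mul_of_nonneg_left (by omega) hs'.le
        omega
      have h2 : -1 < c := by
        by_contra hcon
        have : (s : ℤ) * c ≤ s * (-1) := mul_le_mul_of_nonneg_left (by omega) hs'.le
        omega
      omega
    rw [hc0, mul_zero] at hc
    omega
  · rintro ⟨y, hy⟩
    obtain ⟨⟨z, hz⟩, rfl⟩ := MulAction.mem_orbit_iff.mp hy
    obtain ⟨n, rfl⟩ := Subgroup.mem_zpowers_iff.mp hz
    have hs' : (0 : ℤ) < s := by exact_mod_cast hs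
    have hmod0 : 0 ≤ n % (s : ℤ) := Int.emod_nonneg n hs'.ne'
    have hmodlt : n % (s : ℤ) < s := Int.emod_lt_of_pos n hs'
    refine ⟨⟨(n % (s : ℤ)).toNat, by omega⟩, ?_⟩
    apply Subtype.ext
    show ((g ^ ((n % (s : ℤ)).toNat) * γ : Γ) : Γ ⧸ H) = ((g ^ n * γ : Γ) : Γ ⧸ H)
    rw [← zpow_natCast, ellb_zpow_smul_eq_iff H g s h, Int.toNat_of_nonneg hmod0]
    exact ⟨n / s, by rw [sub_eq_iff_eq_add]; exact (Int.mul_ediv_add_emod n s).symm⟩

theorem ellb_card_orbit (H : Subgroup Γ) (g : Γ) (s : ℕ) (hs : 0 < s)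
    (h : ∀ (γ : Γ) (k : ℤ), γ⁻¹ * g ^ k * γ ∈ H ↔ (s : ℤ) ∣ k) (x : Γ ⧸ H) :
    Nat.card (MulAction.orbit (Subgroup.zpowers g) x) = s := by
  rw [← Nat.card_congr (Equiv.ofBijective _ (ellbOrbMap_bijective H g s hs h x)), Nat.card_fin]

/-- **all orbits have `s` elements**: `s * #orbits = index`. -/
theorem ellb_orbCount_mul (H : Subgroup Γ) [Finite (Γ ⧸ H)] (g : Γ) (s : ℕ) (hs : 0 < s)
    (h : ∀ (γ : Γ) (k : ℤ), γ⁻¹ * g ^ k * γ ∈ H ↔ (s : ℤ) ∣ k) :
    s * orbCount H g = H.index := by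
  classical
  unfold orbCount
  rw [Subgroup.index_eq_card]
  haveI : Fintype (MulAction.orbitRel.Quotient (Subgroup.zpowers g) (Γ ⧸ H)) :=
    Fintype.ofFinite _
  rw [Nat.card_congr (MulAction.selfEquivSigmaOrbits' (Subgroup.zpowers g) (Γ ⧸ H)),
    Nat.card_sigma]
  have hc : ∀ ω : MulAction.orbitRel.Quotient (Subgroup.zpowers g) (Γ ⧸ H),
      Nat.card ω.orbit = s := by
    intro ω
    induction ω using Quotient.inductionOn' with
    | h x =>
      rw [MulAction.orbitRel.Quotient.orbit_mk]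
      exact ellb_card_orbit H g s hs h x
  rw [Finset.sum_congr rfl (fun ω _ => hc ω), Finset.sum_const, Finset.card_univ,
    Nat.card_eq_fintype_card, smul_eq_mul, mul_comm]

end orbits

/-! ### the fibre -/

/-- **a fibre with constant ramification index `s`**:
`s * #{v | v(j - c) > 0} = [F : K(j)]`. -/
theorem ellb_card_of_hom
    {K F L Γ : Type*} [Field K] [IsAlgClosed K] [CharZero K]
    [Field F] [Algebra K F] [Field L] [Algebra K L]
    [Group Γ] [MulSemiringAction Γ L] [SMulCommClass Γ K L]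
    (φ : F →ₐ[K] L) (j : F) (jL : L) (hφj : φ j = jL)
    (htr : Transcendental K jL)
    (hfin : ∃ Γ' : Subgroup Γ, Γ'.FiniteIndex ∧ ∀ g ∈ Γ', ∀ x : L, g • x = x)
    (hj : ∀ g : Γ, g • jL = jL)
    (hfix : ∀ x : L, (∀ g : Γ, g • x = x) → x ∈ IntermediateField.adjoin K {jL})
    (c : K) (w : Valuation L (WithZero (Multiplicative ℤ))) (s : ℕ) (g : Γ)
    (hwK : ∀ a : K, a ≠ 0 → w (algebraMap K L a) = 1) (hs : 0 < s)
    (hw : w (jL - algebraMap K L c) = WithZero.exp (-(s : ℤ)))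
    (hg : ∀ x, w (g • x) = w x)
    (hgs : ∀ k : ℤ, (s : ℤ) ∣ k → ∀ x : L, (g ^ k) • x = x)
    (hnot : ∀ (γ : Γ) (k : ℤ), γ⁻¹ * g ^ k * γ ∈ brStab φ → (s : ℤ) ∣ k) :
    s * Nat.card {v : Place K F // 0 < v.ord (j - algebraMap K F c)} = Module.finrank K⟮j⟯ F := by
  obtain ⟨hrank, hfib, -⟩ := card_fibre_of_hom φ j jL hφj htr hfin hj hfix
    (brStab (Γ := Γ) φ) (fun _ => Iff.rfl)
  -- trivially acting elements lie in the stabiliser
  have htriv : ∀ a : Γ, (∀ x : L, a • x = x) → a ∈ brStab φ := fun a ha x => ha (φ x)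
  have hconj : ∀ (γ : Γ) (k : ℤ), (s : ℤ) ∣ k → γ⁻¹ * g ^ k * γ ∈ brStab φ := by
    intro γ k hk
    refine htriv _ fun x => ?_
    rw [mul_smul, mul_smul, hgs k hk, inv_smul_smul]
  have hiff : ∀ (γ : Γ) (k : ℤ), γ⁻¹ * g ^ k * γ ∈ brStab φ ↔ (s : ℤ) ∣ k :=
    fun γ k => ⟨hnot γ k, hconj γ k⟩
  have hgs' : ∀ k : ℤ, (∀ x : L, (g ^ k) • x = x) ↔ (s : ℤ) ∣ k := by
    intro k
    refine ⟨fun hk => ?_, hgs k⟩
    refine hnot 1 k ?_
    rw [inv_one, one_mul, mul_one]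
    exact htriv _ hk
  obtain ⟨h1, -⟩ := hfib c w s g hwK hs hw hg hgs'
  -- the index is finite
  obtain ⟨Γ', hΓ', hΓ'triv⟩ := hfin
  have hle : Γ' ≤ brStab φ := fun a ha => htriv a (hΓ'triv a ha)
  haveI : (brStab (Γ := Γ) φ).FiniteIndex := Subgroup.finiteIndex_of_le hle
  haveI : Finite (Γ ⧸ brStab (Γ := Γ) φ) := Subgroup.finite_quotient_of_finiteIndex
  rw [h1, hrank]
  exact ellb_orbCount_mul _ g s hs hiff

end Fermat.Agent.S48WG
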