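/-
S48 wall (W), block G-RED, seat ELL-B (helper24), part STAB: the stabiliser of
`y₁ = (F_{(1,0)} - j) / 12` in `SL(2,ℤ)` consists of matrices of trace `≡ ± 2` modulo `M`
(it is `± {[1 0; * 1]}` modulo `M`).  Hence for `4 ≤ M` it contains no conjugate of an elliptic
element (trace `0, ± 1`).

Inputs: `frickeSmul` (hub A1: `γ • F_v = F_{v γ⁻¹}`), `igFExp` (the expansion of `F_v` is
`igF M ζ v`), `igF_distinct` (IG-DIST, here with the TRIVIAL valuation ring `⊤` of `ℚ̄`: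
`igF v = igF v' ⟹ v = ± v'`).
-/
import Mathlib
import Fermat.Agent.S48.W.A1.Slash
import Fermat.Agent.S48.W.G.Red.Igusa.FExp
import Fermat.Agent.S48.W.G.Red.Igusa.DistF
import Fermat.Agent.S48.W.G.Red.Igusa.LeafDefs

set_option autoImplicit false

noncomputable section

namespace Fermat.Agent.S48WG

open UpperHalfPlane ModularCurve
open Fermat.Agent.S24 Fermat.Agent.S48W Fermat.Agent.S48WA1 Fermat.Agent.GaussInt
open scoped MatrixGroups Real

/-- the valuation of the trivial valuation ring is `1` on nonzero elements. -/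
theorem ellb_top_valuation {K : Type*} [Field K] {x : K} (hx : x ≠ 0) :
    (⊤ : ValuationSubring K).valuation x = 1 := by
  refine le_antisymm ?_ ?_
  · rw [ValuationSubring.valuation_le_one_iff]
    exact ValuationSubring.mem_top x
  · have h1 : (⊤ : ValuationSubring K).valuation x⁻¹ ≤ 1 := by
      rw [ValuationSubring.valuation_le_one_iff]
      exact ValuationSubring.mem_top _
    rw [map_inv₀] at h1
    have hne : (⊤ : ValuationSubring K).valuation x ≠ 0 := by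
      rw [Ne, Valuation.zero_iff]
      exact hx
    exact (inv_le_one₀ (zero_lt_iff.mpr hne)).mp h1

/-- `(1, 0) ≢ (0, 0)` modulo `M ≥ 2`. -/
theorem ellb_isNZ_one_zero {M : ℕ} (hM : 2 ≤ M) : IsNZ M 1 0 := by
  rintro ⟨h1, -⟩
  have := Int.le_of_dvd one_pos h1
  omega

/-- a row of a matrix of `SL(2,ℤ)` is `≢ (0, 0)` modulo `M ≥ 2`. -/
theorem ellb_isNZ_row {M : ℕ} (hM : 2 ≤ M) (γ : SL(2, ℤ)) : IsNZ M (γ 0 0) (γ 0 1) := by
  rintro ⟨⟨a, ha⟩, ⟨b, hb⟩⟩
  have hdet := γ.det_coe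
  rw [Matrix.det_fin_two, ha, hb] at hdet
  have hdvd : (M : ℤ) ∣ 1 := ⟨a * γ 1 1 - b * γ 1 0, by linear_combination -hdet⟩
  have := Int.le_of_dvd one_pos hdvd
  omega

/-- **distinct Fricke functions**: `F_{(r,s)} = F_{(1,0)}` forces `(r, s) ≡ ± (1, 0)`. -/
theorem ellb_fricke_eq (M : ℕ) [NeZero M] (hM : 2 ≤ M) (r s : ℤ) (hrs : IsNZ M r s)
    (h : frickeFun M r s = frickeFun M 1 0) :
    (((r : ℤ) : ZMod M) = 1 ∧ ((s : ℤ) : ZMod M) = 0) ∨
      (((r : ℤ) : ZMod M) = -1 ∧ ((s : ℤ) : ZMod M) = 0) := by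
  obtain ⟨ζ, hζ⟩ := HasExp.exists_iota_eq_exp M
  have hprim : IsPrimitiveRoot ζ M := by
    have h1 : IsPrimitiveRoot (iota ζ) M := by
      rw [hζ]
      exact Complex.isPrimitiveRoot_exp M (NeZero.ne M)
    exact h1.of_map_of_injective iota_injective
  have e1 := igFExp M ζ hζ r s hrs
  have e2 := igFExp M ζ hζ 1 0 (ellb_isNZ_one_zero hM)
  rw [h] at e1
  have heq : igF M ζ ((r : ℤ) : ZMod M) ((s : ℤ) : ZMod M)
      = igF M ζ (((1 : ℤ)) : ZMod M) (((0 : ℤ)) : ZMod M) := HasExp.unique e1 e2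
  have hv : ¬ (((r : ℤ) : ZMod M) = 0 ∧ ((s : ℤ) : ZMod M) = 0) := by
    rintro ⟨h1, h2⟩
    exact hrs ⟨(ZMod.intCast_zmod_eq_zero_iff_dvd r M).mp h1,
      (ZMod.intCast_zmod_eq_zero_iff_dvd s M).mp h2⟩
  have hv' : ¬ ((((1 : ℤ)) : ZMod M) = 0 ∧ (((0 : ℤ)) : ZMod M) = 0) := by
    rintro ⟨h1, -⟩
    exact ellb_isNZ_one_zero hM ⟨(ZMod.intCast_zmod_eq_zero_iff_dvd 1 M).mp h1, dvd_zero _⟩
  have hM0 : ((M : ℕ) : Kbar) ≠ 0 := Nat.cast_ne_zero.mpr (NeZero.ne M)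
  have key := igF_distinct (A := (⊤ : ValuationSubring Kbar)) hprim (ellb_top_valuation hM0)
    (ellb_top_valuation (by norm_num)) hv hv' (fun n => by
      rw [heq, sub_self, HahnSeries.coeff_zero, map_zero]
      exact zero_lt_one)
  rcases key with ⟨h1, h2⟩ | ⟨h1, h2⟩
  · left
    refine ⟨by rw [h1]; norm_num, by rw [h2]; norm_num⟩
  · right
    refine ⟨by rw [h1]; norm_num, by rw [h2]; norm_num⟩

/-- a constant function is fixed by `SL(2,ℤ)`. -/
theorem ellb_smul_algebraMap (γ : SL(2, ℤ)) (c : Kbar) :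
    γ • (algebraMap Kbar Fun c) = algebraMap Kbar Fun c := by
  ext τ
  simp

/-- a matrix fixing `y₁` fixes the Fricke function `F_{(1,0)}`. -/
theorem ellb_smul_fricke_of_smul_yOne (M : ℕ) (g : SL(2, ℤ))
    (hg : g • yOneFun M = yOneFun M) : g • frickeFun M 1 0 = frickeFun M 1 0 := by
  unfold yOneFun at hg
  rw [smul_mul', smul_sub, ellb_smul_algebraMap, jFun_smul] at hg
  have h12 : algebraMap Kbar Fun (12 : Kbar) * algebraMap Kbar Fun (12⁻¹ : Kbar) = 1 := by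
    rw [← map_mul, mul_inv_cancel₀ (by norm_num : (12 : Kbar) ≠ 0), map_one]
  have h := congrArg (fun f => algebraMap Kbar Fun (12 : Kbar) * f) hg
  simp only [← mul_assoc, h12, one_mul] at h
  exact sub_left_injective h

/-- **ELL-B, STAB**: a matrix fixing `y₁` has trace `≡ ± 2` modulo `M`. -/
theorem ellb_stab_trace (M : ℕ) [NeZero M] (hM : 2 ≤ M) (g : SL(2, ℤ))
    (hg : g • yOneFun M = yOneFun M) :
    (((g 0 0 + g 1 1 : ℤ)) : ZMod M) = 2 ∨ (((g 0 0 + g 1 1 : ℤ)) : ZMod M) = -2 := by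
  have h1 := ellb_smul_fricke_of_smul_yOne M g hg
  rw [frickeSmul M 1 0 g] at h1
  have hL : actL g⁻¹ 1 0 = g⁻¹ 0 0 := by unfold actL; ring
  have hR : actR g⁻¹ 1 0 = g⁻¹ 0 1 := by unfold actR; ring
  rw [hL, hR] at h1
  have key := ellb_fricke_eq M hM _ _ (ellb_isNZ_row hM g⁻¹) h1
  have h00 : g⁻¹ 0 0 = g 1 1 := by
    rw [Matrix.SpecialLinearGroup.coe_inv, Matrix.adjugate_fin_two]
    rfl
  have h01 : g⁻¹ 0 1 = - g 0 1 := by
    rw [Matrix.SpecialLinearGroup.coe_inv, Matrix.adjugate_fin_two]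
    rfl
  rw [h00, h01] at key
  have hdet : ((g 0 0 : ℤ) : ZMod M) * ((g 1 1 : ℤ) : ZMod M)
      - ((g 0 1 : ℤ) : ZMod M) * ((g 1 0 : ℤ) : ZMod M) = 1 := by
    have := g.det_coe
    rw [Matrix.det_fin_two] at this
    have h2 := congrArg (fun z : ℤ => (z : ZMod M)) this
    simpa using h2
  rcases key with ⟨k1, k2⟩ | ⟨k1, k2⟩
  · left
    have k2' : ((g 0 1 : ℤ) : ZMod M) = 0 := by
      rw [Int.cast_neg, neg_eq_zero] at k2
      exact k2
    rw [k1, k2', zero_mul, sub_zero, mul_one] at hdet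
    push_cast
    rw [hdet, k1]
    norm_num
  · right
    have k2' : ((g 0 1 : ℤ) : ZMod M) = 0 := by
      rw [Int.cast_neg, neg_eq_zero] at k2
      exact k2
    rw [k1, k2', zero_mul, sub_zero, mul_neg, mul_one, neg_eq_iff_eq_neg] at hdet
    push_cast
    rw [hdet, k1]
    norm_num

end Fermat.Agent.S48WG
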